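/-
S55 / block LOC / sub-block LOC-A : abstract arithmetic of henselian discrete valuation rings.
Definitions only (no unfinished proofs).  Mathlib only.

Base setting      : `O` a DVR with fraction field `K`
                    (+ `[HenselianLocalRing O] [Finite (ResidueField O)] [CharZero K]` where needed).
Extension setting : a second copy `O'`, `L` together with
                    `[Algebra K L] [FiniteDimensional K L] [Algebra O O'] [Algebra O L]
                     [IsScalarTower O K L] [IsScalarTower O O' L] [IsIntegralClosure O' O L]`.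
`O'` is ASSUMED to be a (henselian) DVR again: the concrete block LOC-F provides these instances.
-/
import Mathlib

set_option autoImplicit false

namespace Fermat.Agent.S55.Loc.Arith

open IsLocalRing
open scoped WithZero

noncomputable section

section base

variable (O K : Type*) [CommRing O] [IsDomain O] [IsDiscreteValuationRing O] [Field K]
  [Algebra O K] [IsFractionRing O K]

/-- The normalised valuation of the fraction field of a DVR. -/
def val : Valuation K ℤᵐ⁰ := (IsDiscreteValuationRing.maximalIdeal O).valuation K

/-- The normalised order `Kˣ → ℤ` (a uniformiser has order `1`). -/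
def ord (x : Kˣ) : ℤ := - WithZero.log (val O K (x : K))

/-- The image of `Oˣ` in `Kˣ`. -/
def unitsMap : Oˣ →* Kˣ := Units.map (algebraMap O K : O →* K)

/-- The units of `O` as a subgroup of `Kˣ`. -/
def UK : Subgroup Kˣ := (unitsMap O K).range

end base

section pUnits

variable (O : Type*) [CommRing O]

/-- The congruence subgroup `{u ∈ Oˣ | u ≡ 1 mod c}`. -/
def pUnits (c : O) : Subgroup Oˣ where
  carrier := {u | c ∣ (u : O) - 1}
  one_mem' := by simp
  mul_mem' := by
    intro a b ha hb
    simp only [Set.mem_ofPred_eq] at ha hb ⊢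
    have : ((a * b : Oˣ) : O) - 1 = (a : O) * ((b : O) - 1) + ((a : O) - 1) := by
      push_cast; ring
    rw [this]
    exact dvd_add (Dvd.dvd.mul_left hb _) ha
  inv_mem' := by
    intro a ha
    simp only [Set.mem_ofPred_eq] at ha ⊢
    have : ((a⁻¹ : Oˣ) : O) - 1 = -((a⁻¹ : Oˣ) : O) * ((a : O) - 1) := by
      have h : ((a⁻¹ : Oˣ) : O) * (a : O) = 1 := a.inv_mul
      linear_combination h
    rw [this]
    exact Dvd.dvd.mul_left ha _

theorem mem_pUnits {c : O} {u : Oˣ} : u ∈ pUnits O c ↔ c ∣ (u : O) - 1 := Iff.rfl

end pUnits

section ext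

variable (O K O' L : Type*) [CommRing O] [IsDomain O] [IsDiscreteValuationRing O] [Field K]
  [Algebra O K] [IsFractionRing O K]
  [CommRing O'] [IsDomain O'] [IsDiscreteValuationRing O'] [Field L]
  [Algebra O' L] [IsFractionRing O' L] [Algebra K L]

/-- `Kˣ → Lˣ`. -/
def incl : Kˣ →* Lˣ := Units.map (algebraMap K L : K →* L)

/-- The norm `Lˣ → Kˣ`. -/
def normU : Lˣ →* Kˣ := Units.map (Algebra.norm K : L →* K)

/-- The ramification index, defined through the orders: `ord_L (ϖ_K)`. -/
def ramIdx : ℕ :=
  sInf {e : ℕ | 0 < e ∧ ∀ x : Kˣ, ord O' L (incl K L x) = e * ord O K x}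

/-- The residue degree, defined through cardinalities: `|κ'| = |κ| ^ f`. -/
def resDeg : ℕ := Nat.log (Nat.card (ResidueField O)) (Nat.card (ResidueField O'))

end ext

end

end Fermat.Agent.S55.Loc.Arith
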