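/-
S55 / LOC-A / task LOC-A-A3 : `O'` is free of rank `[L:K]` over `O`; `|O'/pO'| = |O/pO|^[L:K]`;
compatibility of the norms of `O'/O` and `L/K`.
Mathlib: `IsIntegralClosure.module_free`, `IsIntegralClosure.rank`, `IsIntegralClosure.finite`,
`IsIntegralClosure.isLocalization`, `Algebra.norm_localization`.
-/
import Fermat.Agent.S55.Loc.Arith.Defs

set_option autoImplicit false

namespace Fermat.Agent.S55.Loc.Arith

open IsLocalRing

/-- For a free module `M` of finite rank over `R` and `c : R`, `|M / cM| = |R / cR| ^ rank`. -/
theorem card_quot_of_basis {R M ι : Type*} [CommRing R] [AddCommGroup M] [Module R M] [Finite ι]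
    (b : Module.Basis ι R M) (c : R) (P : Submodule R M) (hP : ∀ x, x ∈ P ↔ ∃ y, x = c • y) :
    Nat.card (M ⧸ P) = Nat.card (R ⧸ Ideal.span {c}) ^ Nat.card ι := by
  classical
  have : Fintype ι := Fintype.ofFinite ι
  have hmap : P.map (b.equivFun : M →ₗ[R] (ι → R)) =
      Submodule.pi Set.univ (fun _ : ι => Ideal.span {c}) := by
    ext g
    simp only [Submodule.mem_map, Submodule.mem_pi, Set.mem_univ, forall_true_left,
      Ideal.mem_span_singleton]
    constructor
    · rintro ⟨x, hx, rfl⟩ i
      obtain ⟨y, rfl⟩ := (hP x).mp hx
      exact ⟨b.equivFun y i, by simp⟩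
    · intro hg
      choose h hh using hg
      refine ⟨c • b.equivFun.symm h, (hP _).mpr ⟨_, rfl⟩, ?_⟩
      funext i
      show b.equivFun (c • b.equivFun.symm h) i = g i
      rw [map_smul, LinearEquiv.apply_symm_apply, Pi.smul_apply, smul_eq_mul, hh i]
  have e1 := Submodule.Quotient.equiv P _ b.equivFun hmap
  have e2 := Submodule.quotientPi (fun _ : ι => (Ideal.span {c} : Submodule R R))
  rw [Nat.card_congr (e1.trans e2).toEquiv, Nat.card_fun]

variable (O K O' L : Type*) [CommRing O] [IsDomain O] [IsDiscreteValuationRing O] [Field K]
  [CharZero K] [Algebra O K] [IsFractionRing O K]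
  [CommRing O'] [IsDomain O'] [Field L] [Algebra O' L]
  [Algebra K L] [FiniteDimensional K L] [Algebra O O'] [Algebra O L]
  [IsScalarTower O K L] [IsScalarTower O O' L] [IsIntegralClosure O' O L]

include K L in
theorem module_finite : Module.Finite O O' :=
  IsIntegralClosure.finite O K L O'

include K L in
theorem module_free : Module.Free O O' :=
  have : Module.IsTorsionFree O L := .trans_faithfulSMul O K L
  IsIntegralClosure.module_free O K L O'

theorem finrank_eq : Module.finrank O O' = Module.finrank K L :=
  have : Module.IsTorsionFree O L := .trans_faithfulSMul O K L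
  IsIntegralClosure.rank O K L O'

theorem card_quot_span_natCast (p : ℕ) :
    Nat.card (O' ⧸ Ideal.span {(p : O')}) =
      Nat.card (O ⧸ Ideal.span {(p : O)}) ^ Module.finrank K L := by
  have := module_finite O K O' L
  have := module_free O K O' L
  have h := card_quot_of_basis (Module.Free.chooseBasis O O') (p : O)
    ((Ideal.span {(p : O')}).restrictScalars O) (fun x => by
      rw [Submodule.restrictScalars_mem, Ideal.mem_span_singleton]
      constructor
      · rintro ⟨y, rfl⟩
        exact ⟨y, by rw [Algebra.smul_def, map_natCast]⟩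
      · rintro ⟨y, rfl⟩
        exact ⟨y, by rw [Algebra.smul_def, map_natCast]⟩)
  rw [← finrank_eq O K O' L, Module.finrank_eq_card_chooseBasisIndex, ← Nat.card_eq_fintype_card,
    ← h]
  exact Nat.card_congr
    (Submodule.Quotient.restrictScalarsEquiv O (Ideal.span {(p : O')})).symm.toEquiv

theorem norm_algebraMap_eq (w : O') :
    Algebra.norm K (algebraMap O' L w) = algebraMap O K (Algebra.norm O w) := by
  have := module_finite O K O' L
  have := module_free O K O' L
  have : IsLocalization (Algebra.algebraMapSubmonoid O' (nonZeroDivisors O)) L :=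
    IsIntegralClosure.isLocalization O K L O'
  exact Algebra.norm_localization O (nonZeroDivisors O) w

theorem trace_algebraMap_eq (w : O') :
    Algebra.trace K L (algebraMap O' L w) = algebraMap O K (Algebra.trace O O' w) := by
  have := module_finite O K O' L
  have := module_free O K O' L
  have : IsLocalization (Algebra.algebraMapSubmonoid O' (nonZeroDivisors O)) L :=
    IsIntegralClosure.isLocalization O K L O'
  exact Algebra.trace_localization O (nonZeroDivisors O) w

end Fermat.Agent.S55.Loc.Arith
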