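/-
S55 / LOC-A / task LOC-A-ORD : basic API of `ord`.
-/
import Fermat.Agent.S55.Loc.Arith.Defs

set_option autoImplicit false

namespace Fermat.Agent.S55.Loc.Arith

open IsLocalRing
open scoped WithZero

variable {O K : Type*} [CommRing O] [IsDomain O] [IsDiscreteValuationRing O] [Field K]
  [Algebra O K] [IsFractionRing O K]

theorem val_units_ne_zero (x : Kˣ) : val O K (x : K) ≠ 0 :=
  (Valuation.ne_zero_iff _).2 x.ne_zero

theorem val_eq_exp (x : Kˣ) : val O K (x : K) = WithZero.exp (-(ord O K x)) := by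
  rw [ord, neg_neg, WithZero.exp_log (val_units_ne_zero x)]

theorem ord_one : ord O K 1 = 0 := by
  simp [ord]

theorem ord_mul (x y : Kˣ) : ord O K (x * y) = ord O K x + ord O K y := by
  rw [ord, ord, ord, Units.val_mul, map_mul,
    WithZero.log_mul (val_units_ne_zero x) (val_units_ne_zero y)]
  ring

theorem ord_inv (x : Kˣ) : ord O K x⁻¹ = - ord O K x := by
  rw [ord, ord, Units.val_inv_eq_inv_val, map_inv₀, WithZero.log_inv]

theorem ord_pow (x : Kˣ) (n : ℕ) : ord O K (x ^ n) = n * ord O K x := by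
  rw [ord, ord, Units.val_pow_eq_pow_val, map_pow, WithZero.log_pow]
  simp

theorem ord_zpow (x : Kˣ) (n : ℤ) : ord O K (x ^ n) = n * ord O K x := by
  rw [ord, ord, Units.val_zpow_eq_zpow_val, map_zpow₀, WithZero.log_zpow]
  simp

variable (O K) in
/-- `ord` as a homomorphism. -/
noncomputable def ordHom : Kˣ →* Multiplicative ℤ where
  toFun x := Multiplicative.ofAdd (ord O K x)
  map_one' := by rw [ord_one]; rfl
  map_mul' x y := by rw [ord_mul]; rfl

@[simp] theorem ordHom_apply (x : Kˣ) : ordHom O K x = Multiplicative.ofAdd (ord O K x) := rfl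

theorem unitsMap_injective : Function.Injective (unitsMap O K) :=
  Units.map_injective (IsFractionRing.injective O K)

@[simp] theorem coe_unitsMap (u : Oˣ) : ((unitsMap O K u : Kˣ) : K) = algebraMap O K (u : O) := rfl

theorem ord_eq_zero_iff_val (x : Kˣ) : ord O K x = 0 ↔ val O K (x : K) = 1 := by
  rw [val_eq_exp, WithZero.exp_eq_one, neg_eq_zero]

theorem ord_nonneg_iff_val (x : Kˣ) : 0 ≤ ord O K x ↔ val O K (x : K) ≤ 1 := by
  rw [val_eq_exp, ← WithZero.exp_zero, WithZero.exp_le_exp]
  omega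

theorem ord_pos_iff_val (x : Kˣ) : 0 < ord O K x ↔ val O K (x : K) < 1 := by
  rw [val_eq_exp, ← WithZero.exp_zero, WithZero.exp_lt_exp]
  omega

theorem val_algebraMap_eq_one_iff (a : O) : val O K (algebraMap O K a) = 1 ↔ IsUnit a := by
  rw [val, IsDedekindDomain.HeightOneSpectrum.valuation_eq_one_iff_notMem]
  show a ∉ maximalIdeal O ↔ IsUnit a
  rw [mem_maximalIdeal, mem_nonunits_iff, not_not]

theorem val_algebraMap_lt_one_iff (a : O) :
    val O K (algebraMap O K a) < 1 ↔ a ∈ maximalIdeal O := by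
  rw [val, IsDedekindDomain.HeightOneSpectrum.valuation_lt_one_iff_mem]
  rfl

theorem ord_unitsMap (u : Oˣ) : ord O K (unitsMap O K u) = 0 := by
  rw [ord_eq_zero_iff_val, coe_unitsMap, val_algebraMap_eq_one_iff]
  exact u.isUnit

theorem ord_nonneg_iff (x : Kˣ) : 0 ≤ ord O K x ↔ ∃ a : O, algebraMap O K a = (x : K) := by
  rw [ord_nonneg_iff_val]
  constructor
  · intro h
    exact IsDiscreteValuationRing.exists_lift_of_le_one h
  · rintro ⟨a, ha⟩
    rw [← ha]
    exact IsDedekindDomain.HeightOneSpectrum.valuation_le_one _ a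

theorem ord_eq_zero_iff (x : Kˣ) : ord O K x = 0 ↔ x ∈ UK O K := by
  constructor
  · intro h
    obtain ⟨a, ha⟩ := (ord_nonneg_iff x).1 h.ge
    have hu : IsUnit a := by
      rw [← val_algebraMap_eq_one_iff (K := K), ha, ← ord_eq_zero_iff_val]
      exact h
    exact ⟨hu.unit, Units.ext (by rw [coe_unitsMap, IsUnit.unit_spec, ha])⟩
  · rintro ⟨u, rfl⟩
    exact ord_unitsMap u

theorem ord_pos_iff (x : Kˣ) :
    0 < ord O K x ↔ ∃ a ∈ maximalIdeal O, algebraMap O K a = (x : K) := by
  constructor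
  · intro h
    obtain ⟨a, ha⟩ := (ord_nonneg_iff x).1 h.le
    refine ⟨a, ?_, ha⟩
    rw [← val_algebraMap_lt_one_iff (K := K), ha, ← ord_pos_iff_val]
    exact h
  · rintro ⟨a, ha, hx⟩
    rw [ord_pos_iff_val, ← hx, val_algebraMap_lt_one_iff]
    exact ha

theorem le_ord_iff_mem (x : Kˣ) (a : O) (ha : algebraMap O K a = (x : K)) (n : ℕ) :
    (n : ℤ) ≤ ord O K x ↔ a ∈ maximalIdeal O ^ n := by
  have h := IsDedekindDomain.HeightOneSpectrum.intValuation_le_pow_iff_mem
    (IsDiscreteValuationRing.maximalIdeal O) a n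
  rw [← IsDedekindDomain.HeightOneSpectrum.valuation_of_algebraMap (K := K)] at h
  change val O K (algebraMap O K a) ≤ _ ↔ a ∈ maximalIdeal O ^ n at h
  rw [ha] at h
  rw [← h, val_eq_exp, WithZero.exp_le_exp]
  omega

theorem ord_eq_natCast_iff (x : Kˣ) (a : O) (ha : algebraMap O K a = (x : K)) (n : ℕ) :
    ord O K x = n ↔ Ideal.span {a} = maximalIdeal O ^ n := by
  have ha0 : a ≠ 0 := by
    rintro rfl
    rw [map_zero] at ha
    exact x.ne_zero ha.symm
  obtain ⟨m, hm⟩ := IsDiscreteValuationRing.ideal_eq_span_pow_irreducible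
    (s := Ideal.span {a}) (by simpa using ha0) (IsDiscreteValuationRing.exists_irreducible O).choose_spec
  set ϖ := (IsDiscreteValuationRing.exists_irreducible O).choose with hϖdef
  have hϖ : Irreducible ϖ := (IsDiscreteValuationRing.exists_irreducible O).choose_spec
  have hmax : maximalIdeal O = Ideal.span {ϖ} := hϖ.maximalIdeal_eq
  have hspan : Ideal.span {a} = maximalIdeal O ^ m := by
    rw [hm, hmax, Ideal.span_singleton_pow]
  -- the powers of the maximal ideal are distinct
  have hinj : ∀ i j : ℕ, maximalIdeal O ^ i ≤ maximalIdeal O ^ j → j ≤ i := by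
    intro i j hij
    rw [hmax, Ideal.span_singleton_pow, Ideal.span_singleton_pow,
      Ideal.span_singleton_le_span_singleton] at hij
    exact (pow_dvd_pow_iff hϖ.ne_zero hϖ.not_isUnit).1 hij
  have hord : ord O K x = m := by
    apply le_antisymm
    · by_contra hlt
      push Not at hlt
      have h1 : ((m + 1 : ℕ) : ℤ) ≤ ord O K x := by push_cast; omega
      rw [le_ord_iff_mem x a ha] at h1
      have h2 : maximalIdeal O ^ m ≤ maximalIdeal O ^ (m + 1) := by
        rw [← hspan, Ideal.span_singleton_le_iff_mem]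
        exact h1
      have := hinj _ _ h2
      omega
    · rw [le_ord_iff_mem x a ha, ← hspan]
      exact Ideal.mem_span_singleton_self a
  rw [hord, hspan]
  constructor
  · intro h
    have : m = n := by exact_mod_cast h
    rw [this]
  · intro h
    have h1 := hinj _ _ h.le
    have h2 := hinj _ _ h.ge
    have : m = n := le_antisymm h2 h1
    rw [this]

theorem ord_eq_one_of_irreducible {ϖ : O} (h : Irreducible ϖ) (x : Kˣ)
    (hx : algebraMap O K ϖ = (x : K)) : ord O K x = 1 := by
  have := (ord_eq_natCast_iff x ϖ hx 1).2 (by rw [pow_one, h.maximalIdeal_eq])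
  simpa using this

variable (O K) in
theorem exists_ord_eq_one : ∃ π : Kˣ, ord O K π = 1 := by
  obtain ⟨ϖ, hϖ⟩ := IsDiscreteValuationRing.exists_irreducible O
  have h0 : algebraMap O K ϖ ≠ 0 := by
    rw [Ne, map_eq_zero_iff _ (IsFractionRing.injective O K)]
    exact hϖ.ne_zero
  exact ⟨Units.mk0 _ h0, ord_eq_one_of_irreducible hϖ _ rfl⟩

theorem exists_eq_zpow_mul (π : Kˣ) (hπ : ord O K π = 1) (x : Kˣ) :
    ∃ u : Oˣ, x = π ^ ord O K x * unitsMap O K u := by
  have h : ord O K ((π ^ ord O K x)⁻¹ * x) = 0 := by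
    rw [ord_mul, ord_inv, ord_zpow, hπ]
    ring
  obtain ⟨u, hu⟩ := (ord_eq_zero_iff _).1 h
  exact ⟨u, by rw [hu, mul_inv_cancel_left]⟩

/-- ultrametric inequality in the only form used: `x ≡ 1 mod m` implies `ord x = 0`. -/
theorem ord_eq_zero_of_sub_one (x : Kˣ) (a : O) (ha : a ∈ maximalIdeal O)
    (hx : (x : K) = 1 + algebraMap O K a) : ord O K x = 0 := by
  have hu : IsUnit (1 + a) := by
    by_contra hnu
    have h1 : (1 + a) ∈ maximalIdeal O := (mem_maximalIdeal _).2 hnu
    have h2 : (1 : O) ∈ maximalIdeal O := by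
      have := (maximalIdeal O).sub_mem h1 ha
      simp at this
    exact (Ideal.ne_top_iff_one _).1 (maximalIdeal.isMaximal O).ne_top h2
  rw [ord_eq_zero_iff_val, hx, ← map_one (algebraMap O K), ← map_add, val_algebraMap_eq_one_iff]
  exact hu

end Fermat.Agent.S55.Loc.Arith
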