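/-
S55 / LOC-A / task LOC-A-A4a : the ramification index and the residue degree (elementary
definitions of Defs.lean).
-/
import Fermat.Agent.S55.Loc.Arith.Ord

set_option autoImplicit false

namespace Fermat.Agent.S55.Loc.Arith

open IsLocalRing

variable (O K O' L : Type*) [CommRing O] [IsDomain O] [IsDiscreteValuationRing O] [Field K]
  [Algebra O K] [IsFractionRing O K]
  [CommRing O'] [IsDomain O'] [IsDiscreteValuationRing O'] [Field L]
  [Algebra O' L] [IsFractionRing O' L]
  [Algebra K L] [FiniteDimensional K L] [Algebra O O'] [Algebra O L]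
  [IsScalarTower O K L] [IsScalarTower O O' L] [IsIntegralClosure O' O L]

-- every statement of this file takes the explicit arguments `O K O' L` (in this order)
include O K O' L

theorem ramIdx_algebraMap_injective : Function.Injective (algebraMap O O') := by
  have h1 : Function.Injective (algebraMap O L) := by
    rw [IsScalarTower.algebraMap_eq O K L]
    exact (algebraMap K L).injective.comp (IsFractionRing.injective O K)
  rw [IsScalarTower.algebraMap_eq O O' L] at h1
  exact Function.Injective.of_comp h1

/-- `O → O'` is a local homomorphism (`O` is integrally closed, `O'` is integral over `O`). -/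
theorem isLocalHom_algebraMap : IsLocalHom (algebraMap O O') := by
  have h1 : Algebra.IsIntegral O O' := IsIntegralClosure.isIntegral_algebra O L
  exact (algebraMap_isIntegral_iff.mpr h1).isLocalHom (ramIdx_algebraMap_injective O K O' L)

theorem algebraMap_mem_maximalIdeal_iff (a : O) :
    algebraMap O O' a ∈ maximalIdeal O' ↔ a ∈ maximalIdeal O := by
  have := isLocalHom_algebraMap O K O' L
  rw [mem_maximalIdeal, mem_maximalIdeal, mem_nonunits_iff, mem_nonunits_iff,
    isUnit_map_iff (algebraMap O O') a]

variable {O K} in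
omit [FiniteDimensional K L] [IsIntegralClosure O' O L] in
/-- `incl` on the image of `O`. -/
theorem ramIdx_coe_incl (x : Kˣ) (a : O) (ha : algebraMap O K a = (x : K)) :
    algebraMap O' L (algebraMap O O' a) = ((incl K L x : Lˣ) : L) := by
  rw [← IsScalarTower.algebraMap_apply O O' L, IsScalarTower.algebraMap_apply O K L, ha]
  rfl

omit [FiniteDimensional K L] [IsIntegralClosure O' O L] in
/-- units of `O` have order `0` in `L`. -/
theorem ramIdx_ord_incl_unitsMap (u : Oˣ) : ord O' L (incl K L (unitsMap O K u)) = 0 := by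
  have : incl K L (unitsMap O K u) = unitsMap O' L (Units.map (algebraMap O O' : O →* O') u) := by
    apply Units.ext
    exact (ramIdx_coe_incl O' L (unitsMap O K u) (u : O) rfl).symm
  rw [this, ord_unitsMap]

/-- a uniformiser of `K` has positive order in `L`. -/
theorem ramIdx_ord_incl_pos (π : Kˣ) (hπ : 0 < ord O K π) : 0 < ord O' L (incl K L π) := by
  obtain ⟨a, ha, hax⟩ := (ord_pos_iff π).mp hπ
  exact (ord_pos_iff _).mpr ⟨algebraMap O O' a,
    (algebraMap_mem_maximalIdeal_iff O K O' L a).mpr ha, ramIdx_coe_incl O' L π a hax⟩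

omit [FiniteDimensional K L] [IsIntegralClosure O' O L] in
theorem ramIdx_ord_incl_eq (π : Kˣ) (hπ : ord O K π = 1) (x : Kˣ) :
    ord O' L (incl K L x) = ord O' L (incl K L π) * ord O K x := by
  obtain ⟨u, hu⟩ := exists_eq_zpow_mul π hπ x
  conv_lhs => rw [hu]
  rw [map_mul, map_zpow, ord_mul, ord_zpow, ramIdx_ord_incl_unitsMap, add_zero, mul_comm]

theorem ramIdx_set_nonempty :
    {e : ℕ | 0 < e ∧ ∀ x : Kˣ, ord O' L (incl K L x) = e * ord O K x}.Nonempty := by
  obtain ⟨π, hπ⟩ := exists_ord_eq_one O K
  have hpos := ramIdx_ord_incl_pos O K O' L π (by omega)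
  refine ⟨(ord O' L (incl K L π)).toNat, by omega, fun x => ?_⟩
  rw [Int.toNat_of_nonneg hpos.le]
  exact ramIdx_ord_incl_eq O K O' L π hπ x

theorem ramIdx_pos : 0 < ramIdx O K O' L :=
  (Nat.sInf_mem (ramIdx_set_nonempty O K O' L)).1

theorem ord_incl (x : Kˣ) : ord O' L (incl K L x) = ramIdx O K O' L * ord O K x :=
  (Nat.sInf_mem (ramIdx_set_nonempty O K O' L)).2 x

/-- characterisation of `ramIdx`. -/
theorem ramIdx_eq_of_ord (π : Kˣ) (hπ : ord O K π = 1) (e : ℕ)
    (he : ord O' L (incl K L π) = e) : ramIdx O K O' L = e := by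
  have := ord_incl O K O' L π
  rw [hπ, mul_one, he] at this
  exact_mod_cast this.symm

theorem map_maximalIdeal_eq_pow :
    Ideal.map (algebraMap O O') (maximalIdeal O) = maximalIdeal O' ^ ramIdx O K O' L := by
  obtain ⟨ϖ, hϖ⟩ := IsDiscreteValuationRing.exists_irreducible O
  have hϖK : algebraMap O K ϖ ≠ 0 :=
    (map_ne_zero_iff _ (IsFractionRing.injective O K)).mpr hϖ.ne_zero
  have hord : ord O K (Units.mk0 _ hϖK) = 1 := ord_eq_one_of_irreducible hϖ _ rfl
  rw [hϖ.maximalIdeal_eq, Ideal.map_span, Set.image_singleton]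
  refine (ord_eq_natCast_iff (incl K L (Units.mk0 _ hϖK)) (algebraMap O O' ϖ)
    (ramIdx_coe_incl O' L _ ϖ rfl) _).mp ?_
  rw [ord_incl O K O' L, hord, mul_one]

theorem ramIdx_eq_one_iff :
    ramIdx O K O' L = 1 ↔ Ideal.map (algebraMap O O') (maximalIdeal O) = maximalIdeal O' := by
  constructor
  · intro h
    rw [map_maximalIdeal_eq_pow O K O' L, h, pow_one]
  · intro h
    obtain ⟨ϖ, hϖ⟩ := IsDiscreteValuationRing.exists_irreducible O
    have hϖK : algebraMap O K ϖ ≠ 0 :=
      (map_ne_zero_iff _ (IsFractionRing.injective O K)).mpr hϖ.ne_zero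
    have hord : ord O K (Units.mk0 _ hϖK) = 1 := ord_eq_one_of_irreducible hϖ _ rfl
    rw [hϖ.maximalIdeal_eq, Ideal.map_span, Set.image_singleton] at h
    refine ramIdx_eq_of_ord O K O' L _ hord 1 ?_
    refine (ord_eq_natCast_iff (incl K L (Units.mk0 _ hϖK)) (algebraMap O O' ϖ)
      (ramIdx_coe_incl O' L _ ϖ rfl) 1).mpr ?_
    rw [h, pow_one]

/-- a `K`-automorphism preserves integrality. -/
theorem ramIdx_ord_nonneg_algEquiv (σ : L ≃ₐ[K] L) (y : Lˣ) (hy : 0 ≤ ord O' L y) :
    0 ≤ ord O' L (Units.map (σ : L →* L) y) := by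
  obtain ⟨a, ha⟩ := (ord_nonneg_iff y).mp hy
  have h1 : IsIntegral O (y : L) := by
    exact (IsIntegralClosure.isIntegral_iff (A := O')).mpr ⟨a, ha⟩
  have h2 : IsIntegral O (σ (y : L)) := h1.map (σ.toAlgHom.restrictScalars O)
  obtain ⟨b, hb⟩ := (IsIntegralClosure.isIntegral_iff (A := O')).mp h2
  exact (ord_nonneg_iff _).mpr ⟨b, hb⟩

theorem ramIdx_ord_nonneg_algEquiv_iff (σ : L ≃ₐ[K] L) (y : Lˣ) :
    0 ≤ ord O' L (Units.map (σ : L →* L) y) ↔ 0 ≤ ord O' L y := by
  refine ⟨fun h => ?_, ramIdx_ord_nonneg_algEquiv O K O' L σ y⟩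
  have := ramIdx_ord_nonneg_algEquiv O K O' L σ.symm _ h
  have e : Units.map (σ.symm : L →* L) (Units.map (σ : L →* L) y) = y := by
    apply Units.ext
    exact σ.symm_apply_apply _
  rwa [e] at this

theorem ramIdx_ord_nonpos_algEquiv_iff (σ : L ≃ₐ[K] L) (y : Lˣ) :
    ord O' L (Units.map (σ : L →* L) y) ≤ 0 ↔ ord O' L y ≤ 0 := by
  have := ramIdx_ord_nonneg_algEquiv_iff O K O' L σ y⁻¹
  rw [map_inv, ord_inv, ord_inv] at this
  omega

/-- Every `K`-automorphism of `L` preserves `ord`. -/
theorem ord_algEquiv (σ : L ≃ₐ[K] L) (y : Lˣ) :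
    ord O' L (Units.map (σ : L →* L) y) = ord O' L y := by
  obtain ⟨π, hπ⟩ := exists_ord_eq_one O' L
  have h0 : ∀ u : O'ˣ, ord O' L (Units.map (σ : L →* L) (unitsMap O' L u)) = 0 := by
    intro u
    have h1 := (ramIdx_ord_nonneg_algEquiv_iff O K O' L σ (unitsMap O' L u)).mpr
      (ord_unitsMap u).ge
    have h2 := (ramIdx_ord_nonpos_algEquiv_iff O K O' L σ (unitsMap O' L u)).mpr
      (ord_unitsMap u).le
    omega
  have hform : ∀ z : Lˣ, ord O' L (Units.map (σ : L →* L) z) =
      ord O' L z * ord O' L (Units.map (σ : L →* L) π) := by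
    intro z
    obtain ⟨u, hu⟩ := exists_eq_zpow_mul π hπ z
    conv_lhs => rw [hu]
    rw [map_mul, map_zpow, ord_mul, ord_zpow, h0, add_zero]
  -- the preimage of `π`
  have e : Units.map (σ : L →* L) (Units.map (σ.symm : L →* L) π) = π := by
    apply Units.ext
    exact σ.apply_symm_apply _
  have h1 := hform (Units.map (σ.symm : L →* L) π)
  rw [e, hπ] at h1
  have h2 : 0 ≤ ord O' L (Units.map (σ : L →* L) π) :=
    (ramIdx_ord_nonneg_algEquiv_iff O K O' L σ π).mpr (by omega)
  have h3 : ord O' L (Units.map (σ : L →* L) π) = 1 :=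
    Int.eq_one_of_mul_eq_one_left h2 h1.symm
  rw [hform y, h3, mul_one]

section finite

/-- the residue extension is finite (no separability needed). -/
theorem ramIdx_finite_residue [IsLocalHom (algebraMap O O')] :
    Module.Finite (ResidueField O) (ResidueField O') := by
  have hker : RingHom.ker (algebraMap O (ResidueField O)) ≠ ⊤ := by
    intro h
    have h1 : (1 : O) ∈ RingHom.ker (algebraMap O (ResidueField O)) := h ▸ Submodule.mem_top
    rw [RingHom.mem_ker, map_one] at h1
    exact one_ne_zero h1
  have hbound : ∀ s : Finset (ResidueField O'),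
      LinearIndependent (ResidueField O) (fun i : s => (i : ResidueField O')) →
        s.card ≤ Module.finrank K L := by
    intro s hs
    choose lift hlift using (residue_surjective (R := O'))
    let b : s → O' := fun i => lift (i : ResidueField O')
    let f' : O' →ₗ[O] ResidueField O' := (Algebra.linearMap O' (ResidueField O')).restrictScalars O
    have hb' : LinearIndependent (ResidueField O) (f' ∘ b) := by
      have : f' ∘ b = fun i : s => (i : ResidueField O') := by
        funext i
        exact hlift _
      rw [this]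
      exact hs
    have hli := Ideal.FinrankQuotientMap.linearIndependent_of_nontrivial K hker
      ((Algebra.linearMap O' L).restrictScalars O) (IsFractionRing.injective O' L) f' hb'
    have := hli.fintype_card_le_finrank
    simpa using this
  have hrank : Module.rank (ResidueField O) (ResidueField O') ≤ (Module.finrank K L : ℕ) :=
    rank_le hbound
  exact Module.rank_lt_aleph0_iff.mp (hrank.trans_lt Cardinal.natCast_lt_aleph0)

variable [Finite (ResidueField O)]

theorem finite_residueField : Finite (ResidueField O') := by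
  have := isLocalHom_algebraMap O K O' L
  have := ramIdx_finite_residue O K O' L
  exact Module.finite_of_finite (ResidueField O)

/-- `resDeg` is the degree of the residue extension. -/
theorem resDeg_eq_finrank [IsLocalHom (algebraMap O O')] :
    resDeg O O' = Module.finrank (ResidueField O) (ResidueField O') := by
  have := ramIdx_finite_residue O K O' L
  unfold resDeg
  rw [Module.natCard_eq_pow_finrank (K := ResidueField O) (V := ResidueField O')]
  exact Nat.log_pow Finite.one_lt_card _

theorem resDeg_pos : 0 < resDeg O O' := by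
  have := isLocalHom_algebraMap O K O' L
  have := ramIdx_finite_residue O K O' L
  rw [resDeg_eq_finrank O K O' L]
  exact Module.finrank_pos

theorem card_residueField :
    Nat.card (ResidueField O') = Nat.card (ResidueField O) ^ resDeg O O' := by
  have := isLocalHom_algebraMap O K O' L
  have := ramIdx_finite_residue O K O' L
  rw [resDeg_eq_finrank O K O' L]
  exact Module.natCard_eq_pow_finrank

end finite

end Fermat.Agent.S55.Loc.Arith
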