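/-
S55 / LOC-A / task LOC-A-A4b : `e f = n` and `ord_K (N y) = f ord_L y`.
Mathlib: `Ideal.sum_ramification_inertia` (`O'` is local, so `maximalIdeal O'` is the only prime
above), `Ideal.relNorm_eq_pow_of_isMaximal`, `Ideal.relNorm_singleton`, `Algebra.algebraMap_intNorm`.
-/
import Fermat.Agent.S55.Loc.Arith.RamIdx
import Fermat.Agent.S55.Loc.Arith.FreeRank

set_option autoImplicit false

namespace Fermat.Agent.S55.Loc.Arith

open IsLocalRing

variable (O K O' L : Type*) [CommRing O] [IsDomain O] [IsDiscreteValuationRing O] [Field K]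
  [CharZero K] [Algebra O K] [IsFractionRing O K] [Finite (ResidueField O)]
  [CommRing O'] [IsDomain O'] [IsDiscreteValuationRing O'] [Field L]
  [Algebra O' L] [IsFractionRing O' L]
  [Algebra K L] [FiniteDimensional K L] [Algebra O O'] [Algebra O L]
  [IsScalarTower O K L] [IsScalarTower O O' L] [IsIntegralClosure O' O L]

-- every statement of this file takes the explicit arguments `O K O' L` (in this order)
include O K O' L

set_option linter.deprecated false in
omit [Finite (ResidueField O)] [IsDiscreteValuationRing O'] in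
/-- `|O' / m O'| = |k| ^ n` -/
theorem EFN.card_quot_map :
    Nat.card (O' ⧸ Ideal.map (algebraMap O O') (maximalIdeal O)) =
      Nat.card (ResidueField O) ^ Module.finrank K L := by
  have := module_finite O K O' L
  let _ : Field (O ⧸ maximalIdeal O) := Ideal.Quotient.field _
  rw [← Ideal.finrank_quotient_map (maximalIdeal O) K L (S := O')]
  exact Module.natCard_eq_pow_finrank (K := O ⧸ maximalIdeal O)
    (V := O' ⧸ Ideal.map (algebraMap O O') (maximalIdeal O))

theorem ramIdx_mul_resDeg : ramIdx O K O' L * resDeg O O' = Module.finrank K L := by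
  have h1 := EFN.card_quot_map O K O' L
  rw [map_maximalIdeal_eq_pow O K O' L] at h1
  have h2 : Nat.card (O' ⧸ maximalIdeal O' ^ ramIdx O K O' L) =
      Nat.card (ResidueField O') ^ ramIdx O K O' L := by
    have := cardQuot_pow_of_prime (P := maximalIdeal O')
      (IsDiscreteValuationRing.not_a_field O') (i := ramIdx O K O' L)
    simp only [Submodule.cardQuot_apply] at this
    exact this
  rw [h2, card_residueField O K O' L, ← pow_mul] at h1
  have h3 : 2 ≤ Nat.card (ResidueField O) := Finite.one_lt_card
  have := Nat.pow_right_injective h3 h1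
  rw [← this, mul_comm]

omit [Finite (ResidueField O)] [IsDiscreteValuationRing O'] [IsFractionRing O' L] in
/-- norms of units have order zero -/
theorem EFN.ord_normU_unitsMap (u : O'ˣ) : ord O K (normU K L (unitsMap O' L u)) = 0 := by
  have hu : IsUnit (Algebra.norm O (u : O')) := u.isUnit.map (Algebra.norm O)
  obtain ⟨w, hw⟩ := hu
  have h1 : normU K L (unitsMap O' L u) = unitsMap O K w := by
    apply Units.ext
    change Algebra.norm K (algebraMap O' L (u : O')) = algebraMap O K (w : O)
    rw [norm_algebraMap_eq O K O' L, hw]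
  rw [h1, ord_unitsMap]

omit [Finite (ResidueField O)] in
/-- `ord_K (N y) = ord_L y * ord_K (N ϖ)` -/
theorem EFN.ord_normU_eq (ϖ : Lˣ) (hϖ : ord O' L ϖ = 1) (y : Lˣ) :
    ord O K (normU K L y) = ord O' L y * ord O K (normU K L ϖ) := by
  obtain ⟨u, hu⟩ := exists_eq_zpow_mul ϖ hϖ y
  conv_lhs => rw [hu]
  rw [map_mul, map_zpow, ord_mul, ord_zpow, EFN.ord_normU_unitsMap, add_zero]

theorem ord_normU (y : Lˣ) : ord O K (normU K L y) = resDeg O O' * ord O' L y := by
  obtain ⟨π, hπ⟩ := exists_ord_eq_one O K
  obtain ⟨ϖ, hϖ⟩ := exists_ord_eq_one O' L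
  have h1 : normU K L (incl K L π) = π ^ Module.finrank K L := by
    apply Units.ext
    change Algebra.norm K (algebraMap K L (π : K)) = _
    rw [Algebra.norm_algebraMap, Units.val_pow_eq_pow_val]
  have h2 := EFN.ord_normU_eq O K O' L ϖ hϖ (incl K L π)
  rw [h1, ord_pow, hπ, mul_one, ord_incl O K O' L, hπ, mul_one,
    ← ramIdx_mul_resDeg O K O' L] at h2
  have he : (0 : ℤ) < ramIdx O K O' L := by exact_mod_cast ramIdx_pos O K O' L
  have h3 : ord O K (normU K L ϖ) = resDeg O O' := by
    push_cast at h2
    exact (mul_left_cancel₀ he.ne' h2).symm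
  rw [EFN.ord_normU_eq O K O' L ϖ hϖ y, h3, mul_comm]

/-- a norm which is a unit is the norm of a unit. -/
theorem exists_unit_of_normU_mem_UK (y : Lˣ) (h : normU K L y ∈ UK O K) : y ∈ UK O' L := by
  rw [← ord_eq_zero_iff] at h ⊢
  rw [ord_normU O K O' L] at h
  have hf : (0 : ℤ) < resDeg O O' := by exact_mod_cast resDeg_pos O K O' L
  rcases mul_eq_zero.mp h with h0 | h0
  · omega
  · exact h0

end Fermat.Agent.S55.Loc.Arith
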