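/-
S55 / LOC-A / task LOC-A-A1c : indices of congruence subgroups of `Oˣ`.
-/
import Fermat.Agent.S55.Loc.Arith.Defs

set_option autoImplicit false

namespace Fermat.Agent.S55.Loc.Arith

open IsLocalRing

/-- `O / c` is finite for `c ≠ 0` (DVR with finite residue field). -/
theorem finite_quot_span {O : Type*} [CommRing O] [IsDomain O] [IsDiscreteValuationRing O]
    [Finite (ResidueField O)] (c : O) (hc : c ≠ 0) : Finite (O ⧸ Ideal.span {c}) := by
  obtain ⟨ϖ, hϖ⟩ := IsDiscreteValuationRing.exists_irreducible O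
  have hne : Ideal.span {c} ≠ ⊥ := by
    rw [Ne, Ideal.span_singleton_eq_bot]
    exact hc
  obtain ⟨n, hn⟩ := IsDiscreteValuationRing.ideal_eq_span_pow_irreducible hne hϖ
  rw [hn, ← Ideal.span_singleton_pow, ← hϖ.maximalIdeal_eq]
  have : Finite (O ⧸ maximalIdeal O) := ‹Finite (ResidueField O)›
  exact Ideal.finite_quotient_pow (IsNoetherian.noetherian _) n

/-- `pUnits c` is the kernel of `Oˣ → (O/c)ˣ`. -/
theorem pUnits_eq_ker {O : Type*} [CommRing O] (c : O) :
    pUnits O c = (Units.map (Ideal.Quotient.mk (Ideal.span {c}) : O →* O ⧸ Ideal.span {c})).ker := by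
  ext u
  rw [mem_pUnits, MonoidHom.mem_ker, Units.ext_iff, Units.coe_map, Units.val_one,
    ← Ideal.mem_span_singleton, ← Ideal.Quotient.eq_zero_iff_mem, map_sub, map_one, sub_eq_zero]
  rfl

/-- `1 + cO` has finite index in `Oˣ` (kernel of `Oˣ → (O/c)ˣ`). -/
theorem pUnits_index_ne_zero {O : Type*} [CommRing O] [IsDomain O] [IsDiscreteValuationRing O]
    [Finite (ResidueField O)] (c : O) (hc : c ≠ 0) : (pUnits O c).index ≠ 0 := by
  have := finite_quot_span c hc
  rw [pUnits_eq_ker, Subgroup.index_ker]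
  exact Nat.card_pos.ne'

/-- the `y` with `u = 1 + c y` -/
noncomputable def pUnitsQuot {O : Type*} [CommRing O] (c : O) (u : pUnits O c) : O :=
  ((mem_pUnits O).1 u.2).choose

theorem pUnitsQuot_spec {O : Type*} [CommRing O] (c : O) (u : pUnits O c) :
    ((u : Oˣ) : O) - 1 = c * pUnitsQuot c u :=
  ((mem_pUnits O).1 u.2).choose_spec

/-- `1 + c y ↦ y mod d` -/
noncomputable def pUnitsHom {O : Type*} [CommRing O] [IsDomain O] (c d : O) (hc0 : c ≠ 0)
    (hd : d ∣ c) : pUnits O c →* Multiplicative (O ⧸ Ideal.span {d}) where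
  toFun u := Multiplicative.ofAdd (Ideal.Quotient.mk (Ideal.span {d}) (pUnitsQuot c u))
  map_one' := by
    have h := pUnitsQuot_spec c (1 : pUnits O c)
    have h0 : pUnitsQuot c (1 : pUnits O c) = 0 := by
      have : c * pUnitsQuot c (1 : pUnits O c) = 0 := by rw [← h]; simp
      exact (mul_eq_zero.1 this).resolve_left hc0
    rw [h0, map_zero]
    rfl
  map_mul' u v := by
    have hu := pUnitsQuot_spec c u
    have hv := pUnitsQuot_spec c v
    have huv := pUnitsQuot_spec c (u * v)
    have h1 : pUnitsQuot c (u * v) =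
        pUnitsQuot c u + pUnitsQuot c v + c * (pUnitsQuot c u * pUnitsQuot c v) := by
      apply mul_left_cancel₀ hc0
      rw [← huv]
      have : (((u * v : pUnits O c) : Oˣ) : O) = ((u : Oˣ) : O) * ((v : Oˣ) : O) := by
        push_cast
        rfl
      rw [this]
      linear_combination ((v : Oˣ) : O) * hu + (1 + c * pUnitsQuot c u) * hv
    have h2 : Ideal.Quotient.mk (Ideal.span {d}) (c * (pUnitsQuot c u * pUnitsQuot c v)) = 0 := by
      rw [Ideal.Quotient.eq_zero_iff_mem, Ideal.mem_span_singleton]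
      exact Dvd.dvd.mul_right hd _
    have h3 : Ideal.Quotient.mk (Ideal.span {d}) (pUnitsQuot c (u * v)) =
        Ideal.Quotient.mk (Ideal.span {d}) (pUnitsQuot c u) +
          Ideal.Quotient.mk (Ideal.span {d}) (pUnitsQuot c v) := by
      rw [h1, map_add, map_add, h2, add_zero]
    rw [h3]
    rfl

/-- `(1 + cO) / (1 + cdO) ≃ O / d` via `1 + c y ↦ y` when `d ∣ c`, `c ∈ m`. -/
theorem relIndex_pUnits_mul {O : Type*} [CommRing O] [IsDomain O] [IsLocalRing O] (c d : O)
    (hc : c ∈ maximalIdeal O) (hc0 : c ≠ 0) (hd : d ∣ c) :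
    (pUnits O (c * d)).relIndex (pUnits O c) = Nat.card (O ⧸ Ideal.span {d}) := by
  have hker : (pUnits O (c * d)).subgroupOf (pUnits O c) = (pUnitsHom c d hc0 hd).ker := by
    ext u
    rw [Subgroup.mem_subgroupOf, mem_pUnits, MonoidHom.mem_ker, pUnitsQuot_spec c u,
      mul_dvd_mul_iff_left hc0, ← Ideal.mem_span_singleton, ← Ideal.Quotient.eq_zero_iff_mem]
    rfl
  have hsurj : Function.Surjective (pUnitsHom c d hc0 hd) := by
    intro y
    obtain ⟨y, rfl⟩ := Ideal.Quotient.mk_surjective (Multiplicative.toAdd y)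
    have hunit : IsUnit (1 + c * y) := by
      by_contra hnu
      have h1 : 1 + c * y ∈ maximalIdeal O := (mem_maximalIdeal _).2 hnu
      have h2 : c * y ∈ maximalIdeal O := Ideal.mul_mem_right _ _ hc
      have h3 : (1 : O) ∈ maximalIdeal O := by
        have := Ideal.sub_mem _ h1 h2
        simp at this
      exact (Ideal.ne_top_iff_one _).1 (maximalIdeal.isMaximal O).ne_top h3
    have hmem : hunit.unit ∈ pUnits O c := by
      rw [mem_pUnits, IsUnit.unit_spec]
      exact ⟨y, by ring⟩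
    refine ⟨⟨hunit.unit, hmem⟩, ?_⟩
    have h := pUnitsQuot_spec c ⟨hunit.unit, hmem⟩
    have h' : pUnitsQuot c ⟨hunit.unit, hmem⟩ = y := by
      apply mul_left_cancel₀ hc0
      rw [← h]
      show (hunit.unit : O) - 1 = c * y
      rw [IsUnit.unit_spec]
      ring
    show Multiplicative.ofAdd (Ideal.Quotient.mk (Ideal.span {d})
      (pUnitsQuot c ⟨hunit.unit, hmem⟩)) = _
    rw [h']
    rfl
  rw [Subgroup.relIndex, hker, Subgroup.index_ker, MonoidHom.range_eq_top.2 hsurj,
    Subgroup.card_top]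
  rfl

end Fermat.Agent.S55.Loc.Arith
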