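/-
S55 / LOC-A / task LOC-A-A0 : Hensel's lemma for NON-monic polynomials over a henselian local ring.
Mathlib (`HenselianLocalRing.is_henselian`) only has the monic case.
Trick: translate so that `a₀ = 0`, `g = a_n Y^n + ... + a_1 Y + a_0`, `a_1` a unit, `a_0 ∈ m`;
`h(W) = W^n + a_1 W^(n-1) + a_2 a_0 W^(n-2) + ... + a_n a_0^(n-1)` is monic with the simple root
`-a_1` modulo `m`; if `h(w) = 0`, `w ≡ -a_1` (a unit) then `y = a_0 / w` satisfies
`g(y) = a_0 w^(-n) h(w) = 0` and `y ∈ m`.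
-/
import Mathlib

set_option autoImplicit false

namespace Fermat.Agent.S55.Loc.Arith

open IsLocalRing Polynomial

/-- unit + element of the maximal ideal = unit -/
theorem Hensel.isUnit_add_of_mem {O : Type*} [CommRing O] [IsLocalRing O] {a b : O}
    (ha : IsUnit a) (hb : b ∈ maximalIdeal O) : IsUnit (a + b) := by
  by_contra hcon
  have h1 : a + b ∈ maximalIdeal O := (mem_maximalIdeal _).mpr hcon
  have h2 : a ∈ maximalIdeal O := by
    have := (maximalIdeal O).sub_mem h1 hb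
    rwa [add_sub_cancel_right] at this
  exact (mem_maximalIdeal _).mp h2 ha

/-- the case `a₀ = 0` -/
theorem Hensel.core {O : Type*} [CommRing O] [HenselianLocalRing O] (G : O[X])
    (h₁ : G.coeff 0 ∈ maximalIdeal O) (h₂ : IsUnit (G.coeff 1)) :
    ∃ y ∈ maximalIdeal O, G.eval y = 0 := by
  obtain ⟨c₀, hc₀⟩ : ∃ c, c = G.coeff 0 := ⟨_, rfl⟩
  obtain ⟨c₁, hc₁⟩ : ∃ c, c = G.coeff 1 := ⟨_, rfl⟩
  obtain ⟨r, hr⟩ : ∃ r, r = G.divX.divX := ⟨_, rfl⟩
  rw [← hc₀] at h₁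
  rw [← hc₁] at h₂
  have hG : G = X ^ 2 * r + C c₁ * X + C c₀ := by
    conv_lhs => rw [← divX_mul_X_add G, ← divX_mul_X_add G.divX, coeff_divX]
    rw [hr, hc₀, hc₁]
    ring
  obtain ⟨q, hq⟩ : ∃ q, q = r.comp (C c₀ * X) := ⟨_, rfl⟩
  obtain ⟨M, hM⟩ : ∃ M, M = q.natDegree := ⟨_, rfl⟩
  obtain ⟨h, hh⟩ : ∃ h : O[X], h = X ^ (M + 1) * (X + C c₁) + C c₀ * q.reverse := ⟨_, rfl⟩
  have hm1 : (X ^ (M + 1) * (X + C c₁) : O[X]).Monic := (monic_X_pow _).mul (monic_X_add_C _)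
  have hd1 : (X ^ (M + 1) * (X + C c₁) : O[X]).natDegree = M + 2 := by
    rw [(monic_X_pow _).natDegree_mul (monic_X_add_C _), natDegree_X_pow, natDegree_X_add_C]
  have hmonic : h.Monic := by
    rw [hh]
    refine hm1.add_of_left ?_
    rw [degree_eq_natDegree hm1.ne_zero, hd1]
    refine lt_of_le_of_lt degree_le_natDegree ?_
    have h5 := reverse_natDegree_le q
    have h6 := natDegree_C_mul_le c₀ q.reverse
    exact_mod_cast (by omega : (C c₀ * q.reverse).natDegree < M + 2)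
  have he : h.eval (-c₁) ∈ maximalIdeal O := by
    rw [hh]
    simp only [eval_add, eval_mul, eval_pow, eval_X, eval_C, neg_add_cancel, mul_zero, zero_add]
    exact Ideal.mul_mem_right _ _ h₁
  have hd : IsUnit (h.derivative.eval (-c₁)) := by
    rw [hh]
    simp only [derivative_add, derivative_mul, derivative_X, derivative_C, eval_add, eval_mul,
      eval_pow, eval_X, eval_C, neg_add_cancel, mul_zero, zero_add, add_zero, mul_one,
      zero_mul]
    exact Hensel.isUnit_add_of_mem (h₂.neg.pow _) (Ideal.mul_mem_right _ _ h₁)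
  obtain ⟨w, hw, hwm⟩ := HenselianLocalRing.is_henselian h hmonic (-c₁) he hd
  have hwu : IsUnit w := by
    have := Hensel.isUnit_add_of_mem h₂.neg hwm
    rwa [add_sub_cancel] at this
  obtain ⟨w, rfl⟩ := hwu
  refine ⟨c₀ * (w⁻¹ : Oˣ), Ideal.mul_mem_right _ _ h₁, ?_⟩
  have hrev : q.reverse.eval (w : O) * ((w⁻¹ : Oˣ) : O) ^ M = q.eval ((w⁻¹ : Oˣ) : O) := by
    let _ : Invertible ((w⁻¹ : Oˣ) : O) := (w⁻¹).invertible
    have h3 := eval₂_reverse_mul_pow (RingHom.id O) ((w⁻¹ : Oˣ) : O) q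
    have h4 : ⅟((w⁻¹ : Oˣ) : O) = (w : O) := by
      rw [invOf_units, inv_inv]
    rw [h4, ← hM] at h3
    exact h3
  have hqe : q.eval ((w⁻¹ : Oˣ) : O) = r.eval (c₀ * ((w⁻¹ : Oˣ) : O)) := by
    rw [hq, eval_comp, eval_mul, eval_C, eval_X]
  have hw' : (w : O) ^ (M + 1) * ((w : O) + c₁) + c₀ * q.reverse.eval (w : O) = 0 := by
    have := hw
    rw [IsRoot.def, hh] at this
    simpa only [eval_add, eval_mul, eval_pow, eval_X, eval_C] using this
  have hwi : (w : O) * ((w⁻¹ : Oˣ) : O) = 1 := Units.mul_inv w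
  rw [hG]
  simp only [eval_add, eval_mul, eval_pow, eval_X, eval_C]
  rw [← hqe, ← hrev]
  obtain ⟨u, hu⟩ : ∃ u : O, u = ((w⁻¹ : Oˣ) : O) := ⟨_, rfl⟩
  rw [← hu] at hwi ⊢
  obtain ⟨t, ht⟩ : ∃ t : O, t = q.reverse.eval (w : O) := ⟨_, rfl⟩
  rw [← ht] at hw' ⊢
  calc (c₀ * u) ^ 2 * (t * u ^ M) + c₁ * (c₀ * u) + c₀
      = c₀ * u ^ (M + 2) * (c₀ * t) + c₁ * c₀ * u * ((w : O) * u) ^ (M + 1)
          + c₀ * ((w : O) * u) ^ (M + 2) := by
        rw [hwi]; ring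
    _ = c₀ * u ^ (M + 2) * ((w : O) ^ (M + 1) * ((w : O) + c₁) + c₀ * t) := by ring
    _ = 0 := by rw [hw', mul_zero]

theorem exists_root_of_isUnit_derivative {O : Type*} [CommRing O] [HenselianLocalRing O]
    (g : O[X]) (a₀ : O) (h₁ : g.eval a₀ ∈ maximalIdeal O) (h₂ : IsUnit (g.derivative.eval a₀)) :
    ∃ a : O, g.IsRoot a ∧ a - a₀ ∈ maximalIdeal O := by
  obtain ⟨y, hy, hy0⟩ := Hensel.core (taylor a₀ g) (by rwa [taylor_coeff_zero])
    (by rwa [taylor_coeff_one])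
  rw [taylor_eval] at hy0
  exact ⟨y + a₀, hy0, by rwa [add_sub_cancel_right]⟩

end Fermat.Agent.S55.Loc.Arith
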