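/-
S55 / LOC-A / task LOC-A-A1b : `x ↦ x^p` is a bijection `1 + p t O → 1 + p² t O` (`t ∈ m`).
`(1 + p t y)^p = 1 + p² t (y + ∑_{k ≥ 2} C(p,k) p^(k-2) t^(k-1) y^k)`; apply Hensel (non-monic) to
`Y + ∑_{k ≥ 2} C(p,k) p^(k-2) t^(k-1) Y^k - c` at `a₀ = c`.
-/
import Fermat.Agent.S55.Loc.Arith.Defs
import Fermat.Agent.S55.Loc.Arith.Hensel

set_option autoImplicit false

namespace Fermat.Agent.S55.Loc.Arith

open IsLocalRing Polynomial

variable {O : Type*} [CommRing O]

/-- `(1 + p t y) ^ p = 1 + p² t (y + t k y²)` -/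
theorem exists_one_add_pow_eq {R : Type*} [CommRing R] (p : ℕ) (t y : R) :
    ∃ k : R, (1 + (p : R) * t * y) ^ p = 1 + (p : R) ^ 2 * t * (y + t * (k * y ^ 2)) := by
  obtain ⟨k, hk⟩ := Polynomial.powAddExpansion (1 : R) ((p : R) * t * y) p
  refine ⟨k, ?_⟩
  rw [hk, one_pow, one_pow]
  ring

theorem pow_mem_pUnits (p : ℕ) (t : O) (w : Oˣ) (hw : w ∈ pUnits O ((p : O) * t)) :
    w ^ p ∈ pUnits O ((p : O) ^ 2 * t) := by
  rw [mem_pUnits] at hw ⊢
  obtain ⟨y, hy⟩ := hw
  have hw' : (w : O) = 1 + (p : O) * t * y := by rw [← hy]; ring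
  obtain ⟨k, hk⟩ := exists_one_add_pow_eq p t y
  rw [Units.val_pow_eq_pow_val, hw', hk, add_sub_cancel_left]
  exact Dvd.intro _ rfl

theorem exists_pow_eq_of_mem_pUnits [HenselianLocalRing O] (p : ℕ) (hp : 0 < p) (t : O)
    (ht : t ∈ maximalIdeal O) (u : Oˣ) (hu : u ∈ pUnits O ((p : O) ^ 2 * t)) :
    ∃ w ∈ pUnits O ((p : O) * t), w ^ p = u := by
  rw [mem_pUnits] at hu
  obtain ⟨c, hc⟩ := hu
  have hu' : (u : O) = 1 + (p : O) ^ 2 * t * c := by rw [← hc]; ring
  -- the polynomial identity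
  obtain ⟨k, hk⟩ := exists_one_add_pow_eq (R := O[X]) p (C t) X
  let G : O[X] := X + C t * (k * X ^ 2) - C c
  have h₁ : G.eval c ∈ maximalIdeal O := by
    have : G.eval c = t * (k.eval c * c ^ 2) := by
      simp only [G, eval_sub, eval_add, eval_X, eval_mul, eval_C, eval_pow]
      ring
    rw [this]
    exact Ideal.mul_mem_right _ _ ht
  have h₂ : IsUnit (G.derivative.eval c) := by
    have : G.derivative.eval c = 1 + t * ((k * X ^ 2).derivative.eval c) := by
      simp only [G, derivative_sub, derivative_add, derivative_X, derivative_C_mul, derivative_C,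
        eval_sub, eval_add, eval_one, eval_mul, eval_C, eval_zero, sub_zero]
    rw [this]
    by_contra hnu
    have h1 : 1 + t * ((k * X ^ 2).derivative.eval c) ∈ maximalIdeal O :=
      (mem_maximalIdeal _).mpr hnu
    have h2 : (1 : O) ∈ maximalIdeal O := by
      have := (maximalIdeal O).sub_mem h1 (Ideal.mul_mem_right ((k * X ^ 2).derivative.eval c) _ ht)
      simpa using this
    exact (Ideal.ne_top_iff_one _).mp (maximalIdeal.isMaximal O).ne_top h2
  obtain ⟨y, hy, -⟩ := exists_root_of_isUnit_derivative G c h₁ h₂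
  have hy' : y + t * (k.eval y * y ^ 2) = c := by
    have : G.eval y = 0 := hy
    simp only [G, eval_sub, eval_add, eval_X, eval_mul, eval_C, eval_pow] at this
    exact sub_eq_zero.mp this
  have hpow : (1 + (p : O) * t * y) ^ p = u := by
    have := congrArg (Polynomial.eval y) hk
    simp only [eval_pow, eval_add, eval_one, eval_mul, eval_natCast, eval_C, eval_X] at this
    rw [this, hy', hu']
  have hunit : IsUnit (1 + (p : O) * t * y) := by
    rw [← isUnit_pow_iff hp.ne', hpow]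
    exact u.isUnit
  obtain ⟨w, hw⟩ := hunit
  refine ⟨w, ?_, ?_⟩
  · rw [mem_pUnits, hw, add_sub_cancel_left]
    exact Dvd.intro _ rfl
  · apply Units.ext
    rw [Units.val_pow_eq_pow_val, hw, hpow]

theorem eq_one_of_pow_eq_one_of_mem_pUnits [IsDomain O] [IsLocalRing O] (p : ℕ)
    (hp0 : (p : O) ≠ 0) (t : O) (ht : t ∈ maximalIdeal O) (w : Oˣ)
    (hw : w ∈ pUnits O ((p : O) * t)) (h : w ^ p = 1) : w = 1 := by
  rw [mem_pUnits] at hw
  obtain ⟨y, hy⟩ := hw
  have hw' : (w : O) = 1 + (p : O) * t * y := by rw [← hy]; ring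
  obtain ⟨k, hk⟩ := exists_one_add_pow_eq p t y
  have h1 : (w : O) ^ p = 1 := by rw [← Units.val_pow_eq_pow_val, h, Units.val_one]
  rw [hw', hk] at h1
  have h2 : (p : O) ^ 2 * t * (y * (1 + t * (k * y))) = 0 := by
    have : (p : O) ^ 2 * t * (y + t * (k * y ^ 2)) = 0 := by
      simpa using h1
    rw [← this]
    ring
  have hunit : IsUnit (1 + t * (k * y)) := by
    by_contra hnu
    have h3 : 1 + t * (k * y) ∈ maximalIdeal O := (mem_maximalIdeal _).mpr hnu
    have h4 : (1 : O) ∈ maximalIdeal O := by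
      have := (maximalIdeal O).sub_mem h3 (Ideal.mul_mem_right (k * y) _ ht)
      simpa using this
    exact (Ideal.ne_top_iff_one _).mp (maximalIdeal.isMaximal O).ne_top h4
  apply Units.ext
  rw [hw', Units.val_one]
  rcases mul_eq_zero.mp h2 with h5 | h5
  · rcases mul_eq_zero.mp h5 with h6 | h6
    · exact absurd (pow_eq_zero_iff (two_ne_zero)|>.mp h6) hp0
    · rw [h6]; ring
  · rcases mul_eq_zero.mp h5 with h6 | h6
    · rw [h6]; ring
    · exact absurd h6 hunit.ne_zero

end Fermat.Agent.S55.Loc.Arith
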