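/-
S55 / LOC-A / task LOC-A-A1 : the unit index `[Oˣ : Oˣ^p] = |μ_p(O)| · |O / pO|` (any prime `p`,
also `p` = residue characteristic), without completeness.
Proof: `V = pUnits O (p ϖ)` has finite index (PUnitsIndex), `x ↦ x^p` is a bijection
`V → pUnits O (p² ϖ)` (PowBij), so `[V : V^p] = |O / pO|` (relIndex_pUnits_mul with `c = pϖ`,
`d = p`) and `V[p] = 1`, i.e. `phi V = |O/pO|`; `phi Oˣ = phi V` because `Oˣ / V` is finite
(`Cyc.phi_mid`, `Cyc.phi_of_finite`).
-/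
import Fermat.Agent.S55.Loc.Arith.PowBij
import Fermat.Agent.S55.Loc.Arith.PUnitsIndex
import Fermat.Agent.S55.Cyc.Phi
import Fermat.Agent.S55.Cyc.NormIndex

set_option autoImplicit false

namespace Fermat.Agent.S55.Loc.Arith

open IsLocalRing

variable (O : Type*) [CommRing O] [IsDomain O] [IsDiscreteValuationRing O] [HenselianLocalRing O]
  [Finite (ResidueField O)] [CharZero O]

/-- `phi (1 + pϖO) = |O / pO|`. -/
theorem phi_pUnits_aux (p : ℕ) (hp : 0 < p) (ϖ : O) (hϖ : Irreducible ϖ) :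
    Cyc.PhiDef (Additive (pUnits O ((p : O) * ϖ))) p ∧
      Cyc.phi (Additive (pUnits O ((p : O) * ϖ))) p =
        (Nat.card (O ⧸ Ideal.span {(p : O)}) : ℚ) := by
  have hp0 : (p : O) ≠ 0 := Nat.cast_ne_zero.mpr hp.ne'
  have hϖm : ϖ ∈ maximalIdeal O := (mem_maximalIdeal ϖ).mpr hϖ.not_isUnit
  set V : Subgroup Oˣ := pUnits O ((p : O) * ϖ) with hV
  have hker : (powMonoidHom p : V →* V).ker = ⊥ := by
    rw [eq_bot_iff]
    intro w hw
    rw [MonoidHom.mem_ker, powMonoidHom_apply] at hw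
    rw [Subgroup.mem_bot]
    apply Subtype.ext
    have h1 : (w : Oˣ) ^ p = 1 := by
      have := congrArg Subtype.val hw
      simpa using this
    exact eq_one_of_pow_eq_one_of_mem_pUnits p hp0 ϖ hϖm (w : Oˣ) w.2 h1
  have hcardker : Nat.card (powMonoidHom p : V →* V).ker = 1 := by
    rw [hker]
    exact Subgroup.card_bot
  have hrange : (powMonoidHom p : V →* V).range =
      (pUnits O ((p : O) ^ 2 * ϖ)).subgroupOf V := by
    ext w
    rw [MonoidHom.mem_range, Subgroup.mem_subgroupOf]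
    constructor
    · rintro ⟨v, rfl⟩
      rw [powMonoidHom_apply]
      exact pow_mem_pUnits p ϖ (v : Oˣ) v.2
    · intro hw
      obtain ⟨v, hv, hvw⟩ := exists_pow_eq_of_mem_pUnits p hp ϖ hϖm (w : Oˣ) hw
      exact ⟨⟨v, hv⟩, Subtype.ext hvw⟩
  have hindex : (powMonoidHom p : V →* V).range.index =
      Nat.card (O ⧸ Ideal.span {(p : O)}) := by
    rw [hrange]
    have h1 := relIndex_pUnits_mul ((p : O) * ϖ) (p : O) (Ideal.mul_mem_left _ _ hϖm)
      (mul_ne_zero hp0 hϖ.ne_zero) (Dvd.intro _ rfl)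
    have h2 : (p : O) * ϖ * (p : O) = (p : O) ^ 2 * ϖ := by ring
    rw [h2] at h1
    exact h1
  have hfin : Finite (O ⧸ Ideal.span {(p : O)}) := finite_quot_span (p : O) hp0
  have hcard : Nat.card (O ⧸ Ideal.span {(p : O)}) ≠ 0 := Nat.card_pos.ne'
  refine ⟨(Cyc.phiDef_additive_iff V p).mpr ⟨by rw [hindex]; exact hcard, by rw [hcardker]; simp⟩,
    ?_⟩
  rw [Cyc.phi_additive, hindex, hcardker, Nat.cast_one, div_one]

/-- `phi (Oˣ) = |O / pO|` in the language of block CYC. -/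
theorem phi_units (p : ℕ) (hp : 0 < p) :
    Cyc.PhiDef (Additive Oˣ) p ∧
      Cyc.phi (Additive Oˣ) p = (Nat.card (O ⧸ Ideal.span {(p : O)}) : ℚ) := by
  obtain ⟨ϖ, hϖ⟩ := IsDiscreteValuationRing.exists_irreducible O
  have hp0 : (p : O) ≠ 0 := Nat.cast_ne_zero.mpr hp.ne'
  obtain ⟨hV1, hV2⟩ := phi_pUnits_aux O p hp ϖ hϖ
  set V : Subgroup Oˣ := pUnits O ((p : O) * ϖ) with hV
  have hidx : V.index ≠ 0 := pUnits_index_ne_zero _ (mul_ne_zero hp0 hϖ.ne_zero)
  have : V.FiniteIndex := ⟨hidx⟩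
  have : Finite (Oˣ ⧸ V) := Subgroup.finite_quotient_of_finiteIndex
  have hQ := Cyc.phi_of_finite (A := Additive (Oˣ ⧸ V)) p
  have hmid := Cyc.phi_mid p (MonoidHom.toAdditive V.subtype)
    (MonoidHom.toAdditive (QuotientGroup.mk' V))
    (fun a b h => Subtype.val_injective h)
    (fun x => by
      obtain ⟨y, hy⟩ := QuotientGroup.mk'_surjective V (Additive.toMul x)
      exact ⟨Additive.ofMul y, hy⟩)
    (by
      ext x
      rw [AddMonoidHom.mem_range, AddMonoidHom.mem_ker]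
      constructor
      · rintro ⟨v, rfl⟩
        exact (QuotientGroup.eq_one_iff _).mpr (Additive.toMul v).2
      · intro hx
        have h1 : Additive.toMul x ∈ V := (QuotientGroup.eq_one_iff _).mp hx
        exact ⟨Additive.ofMul ⟨_, h1⟩, rfl⟩)
    hV1 hQ.1
  exact ⟨hmid.1, by rw [hmid.2, hQ.2, mul_one, hV2]⟩

/-- The same in plain index/cardinality form. -/
theorem index_range_pow_units (p : ℕ) (hp : 0 < p) :
    (powMonoidHom p : Oˣ →* Oˣ).range.index ≠ 0 ∧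
    Nat.card (powMonoidHom p : Oˣ →* Oˣ).ker ≠ 0 ∧
    (powMonoidHom p : Oˣ →* Oˣ).range.index =
      Nat.card (powMonoidHom p : Oˣ →* Oˣ).ker * Nat.card (O ⧸ Ideal.span {(p : O)}) := by
  obtain ⟨h1, h2⟩ := phi_units O p hp
  obtain ⟨h3, h4⟩ := (Cyc.phiDef_additive_iff Oˣ p).mp h1
  refine ⟨h3, h4, ?_⟩
  rw [Cyc.phi_additive, div_eq_iff (Nat.cast_ne_zero.mpr h4)] at h2
  have h5 : ((powMonoidHom p : Oˣ →* Oˣ).range.index : ℚ) =
      ((Nat.card (powMonoidHom p : Oˣ →* Oˣ).ker * Nat.card (O ⧸ Ideal.span {(p : O)}) : ℕ) : ℚ) := by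
    rw [h2]
    push_cast
    ring
  exact_mod_cast h5

end Fermat.Agent.S55.Loc.Arith
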