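/-
S55 / LOC-A / task LOC-A-A2 : `[Kˣ : Kˣ^p] = p · |μ_p(K)| · |O / pO|`.
Proof: `1 → Oˣ → Kˣ → ℤ → 0` (Ord.lean), `Cyc.phi_mid`, `Cyc.phi_int`, `phi_units`.
-/
import Fermat.Agent.S55.Loc.Arith.Ord
import Fermat.Agent.S55.Loc.Arith.UnitIndex
import Fermat.Agent.S55.Cyc.NormIndex

set_option autoImplicit false

namespace Fermat.Agent.S55.Loc.Arith

open IsLocalRing

variable (O K : Type*) [CommRing O] [IsDomain O] [IsDiscreteValuationRing O]
  [HenselianLocalRing O] [Finite (ResidueField O)] [Field K] [CharZero K]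
  [Algebra O K] [IsFractionRing O K]

include K in
theorem charZero_of_fractionRing : CharZero O :=
  (algebraMap O K).charZero

theorem phi_field_units (p : ℕ) (hp : 0 < p) :
    Cyc.PhiDef (Additive Kˣ) p ∧
      Cyc.phi (Additive Kˣ) p = (p : ℚ) * (Nat.card (O ⧸ Ideal.span {(p : O)}) : ℚ) := by
  have hchar : CharZero O := charZero_of_fractionRing O K
  let i : Additive Oˣ →+ Additive Kˣ := MonoidHom.toAdditive (unitsMap O K)
  let π : Additive Kˣ →+ ℤ := MonoidHom.toAdditiveLeft (ordHom O K)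
  have hπ_apply : ∀ a : Additive Kˣ, π a = ord O K (Additive.toMul a) := fun _ => rfl
  have hi : Function.Injective i := by
    intro a b h
    exact Additive.toMul.injective (unitsMap_injective (O := O) (K := K) (Additive.ofMul.injective h))
  have hπ : Function.Surjective π := by
    intro n
    obtain ⟨ϖ, hϖ⟩ := exists_ord_eq_one O K
    refine ⟨Additive.ofMul (ϖ ^ n), ?_⟩
    rw [hπ_apply, toMul_ofMul, ord_zpow, hϖ, mul_one]
  have hex : i.range = π.ker := by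
    ext a
    rw [AddMonoidHom.mem_ker, hπ_apply, ord_eq_zero_iff]
    constructor
    · rintro ⟨u, rfl⟩
      exact ⟨Additive.toMul u, rfl⟩
    · rintro ⟨u, hu⟩
      exact ⟨Additive.ofMul u, congrArg Additive.ofMul hu⟩
  obtain ⟨h1, h2⟩ := Cyc.phi_mid p i π hi hπ hex (phi_units O p hp).1 (Cyc.phi_int p hp).1
  refine ⟨h1, ?_⟩
  rw [h2, (phi_units O p hp).2, (Cyc.phi_int p hp).2, mul_comm]

theorem index_range_pow_field (p : ℕ) (hp : 0 < p) :
    (powMonoidHom p : Kˣ →* Kˣ).range.index ≠ 0 ∧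
    Nat.card (powMonoidHom p : Kˣ →* Kˣ).ker ≠ 0 ∧
    (powMonoidHom p : Kˣ →* Kˣ).range.index =
      p * Nat.card (powMonoidHom p : Kˣ →* Kˣ).ker * Nat.card (O ⧸ Ideal.span {(p : O)}) := by
  obtain ⟨h1, h2⟩ := phi_field_units O K p hp
  rw [Cyc.phiDef_additive_iff] at h1
  rw [Cyc.phi_additive] at h2
  refine ⟨h1.1, h1.2, ?_⟩
  have hk : (Nat.card (powMonoidHom p : Kˣ →* Kˣ).ker : ℚ) ≠ 0 := Nat.cast_ne_zero.2 h1.2
  rw [div_eq_iff hk] at h2
  have h3 : (((powMonoidHom p : Kˣ →* Kˣ).range.index : ℕ) : ℚ) =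
      ((p * Nat.card (powMonoidHom p : Kˣ →* Kˣ).ker * Nat.card (O ⧸ Ideal.span {(p : O)}) : ℕ) : ℚ) := by
    rw [h2]
    push_cast
    ring
  exact_mod_cast h3

/-- With `μ_p ⊆ K`: `[Kˣ : Kˣ^p] = p² · |O / pO|`. -/
theorem index_range_pow_field_of_primitiveRoot (p : ℕ) (hp : 0 < p) {ζ : K}
    (hζ : IsPrimitiveRoot ζ p) :
    (powMonoidHom p : Kˣ →* Kˣ).range.index = p ^ 2 * Nat.card (O ⧸ Ideal.span {(p : O)}) := by
  have : NeZero p := ⟨hp.ne'⟩
  have hker : (powMonoidHom p : Kˣ →* Kˣ).ker = rootsOfUnity p K := by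
    ext x
    rw [MonoidHom.mem_ker, powMonoidHom_apply, mem_rootsOfUnity]
  have hcard : Nat.card (powMonoidHom p : Kˣ →* Kˣ).ker = p := by
    rw [hker, hζ.card_rootsOfUnity]
  rw [(index_range_pow_field O K p hp).2.2, hcard, sq]

end Fermat.Agent.S55.Loc.Arith
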