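/-
S55 / LOC-A / task LOC-A-A5 : the local norm index. `L/K` Galois of prime degree `ℓ`
(any prime, also the residue characteristic): `[Kˣ : N Lˣ] = ℓ`.
Proof: Tate's lemma (`Cyc.tate_lemma`) for `A = Additive Lˣ`, `s = σ` a generator of `Gal(L/K)`:
`A^s = Kˣ`, `phi Lˣ = ℓ |O'/ℓO'| = ℓ |O/ℓO|^ℓ` (FieldIndex for `L`, FreeRank), `phi Kˣ = ℓ |O/ℓO|`,
hence `herb^(ℓ-1) = ℓ^(ℓ-1)`, `herb = ℓ` (`Cyc.herb_eq_of_pow`); Hilbert 90 + `Cyc.herb_eq_index_of_h1`.
(helper241 is writing `Cyc/NormIndex.lean` with an abstract version: use it if it is on main.)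
-/
import Fermat.Agent.S55.Loc.Arith.FieldIndex
import Fermat.Agent.S55.Loc.Arith.EFN
import Fermat.Agent.S55.Cyc.Herb
import Fermat.Agent.S55.Cyc.NormIndex

set_option autoImplicit false

namespace Fermat.Agent.S55.Loc.Arith

open IsLocalRing

namespace NormIndex

/-- the index of the `p`-th powers is invariant under isomorphisms. -/
theorem index_range_pow_congr {U U' : Type*} [CommGroup U] [CommGroup U'] (e : U ≃* U') (p : ℕ) :
    (powMonoidHom p : U →* U).range.index = (powMonoidHom p : U' →* U').range.index := by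
  rw [← Subgroup.index_map_equiv (powMonoidHom p : U →* U).range e]
  congr 1
  ext y
  constructor
  · rintro ⟨_, ⟨x, rfl⟩, rfl⟩
    exact ⟨e x, by simp⟩
  · rintro ⟨x, rfl⟩
    exact ⟨_, ⟨e.symm x, rfl⟩, by simp⟩

/-- the number of `p`-torsion elements is invariant under isomorphisms. -/
theorem card_ker_pow_congr {U U' : Type*} [CommGroup U] [CommGroup U'] (e : U ≃* U') (p : ℕ) :
    Nat.card (powMonoidHom p : U →* U).ker = Nat.card (powMonoidHom p : U' →* U').ker := by
  refine Nat.card_congr ⟨fun x => ⟨e x.1, ?_⟩, fun y => ⟨e.symm y.1, ?_⟩, fun x => ?_, fun y => ?_⟩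
  · have := x.2
    rw [MonoidHom.mem_ker, powMonoidHom_apply] at this ⊢
    rw [← map_pow, this, map_one]
  · have := y.2
    rw [MonoidHom.mem_ker, powMonoidHom_apply] at this ⊢
    rw [← map_pow, this, map_one]
  · simp
  · simp

section
variable (O K : Type*) [CommRing O] [IsDomain O] [IsDiscreteValuationRing O] [Field K]
  [Algebra O K] [IsFractionRing O K]

theorem ker_ordHom : (ordHom O K).ker = (unitsMap O K).range := by
  ext x
  rw [MonoidHom.mem_ker, ordHom_apply]
  show Multiplicative.ofAdd (ord O K x) = Multiplicative.ofAdd 0 ↔ x ∈ UK O K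
  rw [Multiplicative.ofAdd.injective.eq_iff, ord_eq_zero_iff]

/-- `Oˣ ≃* ker ord`. -/
noncomputable def unitsEquivKer : Oˣ ≃* (ordHom O K).ker :=
  ((unitsMap O K).ofInjective unitsMap_injective).trans
    (MulEquiv.subgroupCongr (ker_ordHom O K).symm)

theorem ordHom_surjective : Function.Surjective (ordHom O K) := by
  intro n
  obtain ⟨π, hπ⟩ := exists_ord_eq_one O K
  refine ⟨π ^ (Multiplicative.toAdd n), ?_⟩
  rw [ordHom_apply, ord_zpow, hπ, mul_one]
  rfl

end

section
variable (O K O' L : Type*) [CommRing O] [IsDomain O] [IsDiscreteValuationRing O] [Field K]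
  [Algebra O K] [IsFractionRing O K]
  [CommRing O'] [IsDomain O'] [IsDiscreteValuationRing O'] [Field L]
  [Algebra O' L] [IsFractionRing O' L]
  [Algebra K L] [FiniteDimensional K L] [Algebra O O'] [Algebra O L]
  [IsScalarTower O K L] [IsScalarTower O O' L] [IsIntegralClosure O' O L]

theorem unitsK_ordHom : Cyc.unitsK K (ordHom O' L) = (unitsMap O K).range := by
  ext x
  show Units.map (algebraMap K L : K →* L) x ∈ (ordHom O' L).ker ↔ x ∈ UK O K
  rw [MonoidHom.mem_ker, ordHom_apply, ← ord_eq_zero_iff]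
  show Multiplicative.ofAdd (ord O' L (incl K L x)) = Multiplicative.ofAdd 0 ↔ _
  rw [Multiplicative.ofAdd.injective.eq_iff, ord_incl O K O' L]
  have := ramIdx_pos O K O' L
  constructor
  · intro h
    rcases mul_eq_zero.1 h with h | h
    · exact absurd h (by exact_mod_cast this.ne')
    · exact h
  · intro h
    rw [h, mul_zero]

/-- `Oˣ ≃* U_K`. -/
noncomputable def unitsEquivUnitsK : Oˣ ≃* Cyc.unitsK K (ordHom O' L) :=
  ((unitsMap O K).ofInjective unitsMap_injective).trans
    (MulEquiv.subgroupCongr (unitsK_ordHom O K O' L).symm)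

end

end NormIndex

variable (O K O' L : Type*) [CommRing O] [IsDomain O] [IsDiscreteValuationRing O]
  [HenselianLocalRing O] [Field K]
  [CharZero K] [Algebra O K] [IsFractionRing O K] [Finite (ResidueField O)]
  [CommRing O'] [IsDomain O'] [IsDiscreteValuationRing O'] [HenselianLocalRing O'] [Field L]
  [Algebra O' L] [IsFractionRing O' L]
  [Algebra K L] [FiniteDimensional K L] [Algebra O O'] [Algebra O L]
  [IsScalarTower O K L] [IsScalarTower O O' L] [IsIntegralClosure O' O L]

include O O' in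
theorem index_range_normU [IsGalois K L] (ℓ : ℕ) (hℓ : ℓ.Prime) (hdeg : Module.finrank K L = ℓ) :
    (normU K L).range.index = ℓ := by
  have : CharZero L := charZero_of_injective_algebraMap (algebraMap K L).injective
  have : CharZero O := charZero_of_fractionRing O K
  have : Finite (ResidueField O') := finite_residueField O K O' L
  have : CharZero O' := charZero_of_fractionRing O' L
  -- a generator of the Galois group
  have : Fact ℓ.Prime := ⟨hℓ⟩
  have hcard : Nat.card (L ≃ₐ[K] L) = ℓ := by rw [IsGalois.card_aut_eq_finrank, hdeg]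
  have : IsCyclic (L ≃ₐ[K] L) := isCyclic_of_prime_card hcard
  obtain ⟨σ, hσ⟩ := IsCyclic.exists_generator (α := L ≃ₐ[K] L)
  obtain ⟨iK, kK, eK⟩ := index_range_pow_units O ℓ hℓ.pos
  obtain ⟨iL, kL, eL⟩ := index_range_pow_units O' ℓ hℓ.pos
  rw [card_quot_span_natCast O K O' L ℓ, hdeg] at eL
  rw [NormIndex.index_range_pow_congr (NormIndex.unitsEquivKer O' L) ℓ] at iL eL
  rw [NormIndex.card_ker_pow_congr (NormIndex.unitsEquivKer O' L) ℓ] at kL eL
  rw [NormIndex.index_range_pow_congr (NormIndex.unitsEquivUnitsK O K O' L) ℓ] at eK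
  rw [NormIndex.card_ker_pow_congr (NormIndex.unitsEquivUnitsK O K O' L) ℓ] at eK
  refine Cyc.norm_index ℓ hℓ hdeg σ hσ (ordHom O' L) (fun x => ?_) iL kL ?_
    (NormIndex.ordHom_surjective O' L)
  · rw [ordHom_apply, ordHom_apply, ord_algEquiv O K O' L]
  · rw [eL, eK]
    ring

end Fermat.Agent.S55.Loc.Arith
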