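/-
S55 / LOC-A / task LOC-A-A6a : the norm commutes with reduction modulo the maximal ideal of the
base (same proof as Mathlib's `Algebra.trace_quotient_mk`, with `RingHom.map_det`).
-/
import Mathlib

set_option autoImplicit false

namespace Fermat.Agent.S55.Loc.Arith

open IsLocalRing

attribute [local instance] Ideal.Quotient.field

theorem norm_quotient_mk {R S : Type*} [CommRing R] [CommRing S] [Algebra R S] [Module.Free R S]
    [Module.Finite R S] [IsLocalRing R] (x : S) :
    Algebra.norm (R ⧸ maximalIdeal R)
        (Ideal.Quotient.mk (Ideal.map (algebraMap R S) (maximalIdeal R)) x) =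
      Ideal.Quotient.mk (maximalIdeal R) (Algebra.norm R x) := by
  classical
  let ι := Module.Free.ChooseBasisIndex R S
  let b : Module.Basis ι R S := Module.Free.chooseBasis R S
  rw [Algebra.norm_eq_matrix_det b, Algebra.norm_eq_matrix_det (basisQuotient b),
    RingHom.map_det]
  congr 1
  ext i j
  simp only [Algebra.leftMulMatrix_apply, Algebra.coe_lmul_eq_mul, LinearMap.toMatrix_apply,
    basisQuotient_apply, LinearMap.mul_apply', RingHom.mapMatrix_apply, Matrix.map_apply,
    ← map_mul, basisQuotient_repr]

end Fermat.Agent.S55.Loc.Arith
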