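/-
S55 / LOC-A / task LOC-A-A2c : Hensel criteria for `p`-th powers.
-/
import Fermat.Agent.S55.Loc.Arith.Ord
import Fermat.Agent.S55.Loc.Arith.PowBij

set_option autoImplicit false
set_option linter.unusedSectionVars false

namespace Fermat.Agent.S55.Loc.Arith

open IsLocalRing

variable {O K : Type*} [CommRing O] [IsDomain O] [IsDiscreteValuationRing O]
  [HenselianLocalRing O] [Field K] [Algebra O K] [IsFractionRing O K]

omit [IsDomain O] [IsDiscreteValuationRing O] in
/-- Hensel's lemma for `X ^ p - u`, `p` a unit. -/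
theorem powCrit_exists_pow_eq (p : ℕ) (hpu : IsUnit (p : O)) (u : Oˣ) (a₀ : O)
    (h : (u : O) - a₀ ^ p ∈ maximalIdeal O) : ∃ w : Oˣ, w ^ p = u := by
  open Polynomial in
  have hp0 : p ≠ 0 := by
    rintro rfl
    simp at hpu
  have ha₀ : IsUnit a₀ := by
    by_contra hna
    have h1 : a₀ ∈ maximalIdeal O := (mem_maximalIdeal a₀).2 hna
    have h2 : a₀ ^ p ∈ maximalIdeal O := Ideal.pow_mem_of_mem _ h1 p (Nat.pos_of_ne_zero hp0)
    have h3 : (u : O) ∈ maximalIdeal O := by
      have := Ideal.add_mem _ h h2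
      rwa [sub_add_cancel] at this
    exact (mem_maximalIdeal _).1 h3 u.isUnit
  obtain ⟨a, ha, -⟩ := HenselianLocalRing.is_henselian (X ^ p - C (u : O))
    (monic_X_pow_sub_C _ hp0) a₀ (by
      have : (X ^ p - C (u : O)).eval a₀ = -((u : O) - a₀ ^ p) := by simp
      rw [this]
      exact neg_mem h) (by
      have : (derivative (X ^ p - C (u : O))).eval a₀ = (p : O) * a₀ ^ (p - 1) := by
        simp [derivative_X_pow]
      rw [this]
      exact hpu.mul (ha₀.pow _))
  have hap : a ^ p = (u : O) := by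
    have : (X ^ p - C (u : O)).eval a = 0 := ha
    simpa [sub_eq_zero] using this
  have hau : IsUnit a := (isUnit_pow_iff hp0).1 (hap ▸ u.isUnit)
  exact ⟨hau.unit, Units.ext (by simpa using hap)⟩

/-- tame case, congruence form. -/
theorem isPow_iff_exists_sub_mem (p : ℕ) (hpu : IsUnit (p : O)) (u : Oˣ) :
    (∃ w : Oˣ, w ^ p = u) ↔ ∃ y : O, (u : O) - y ^ p ∈ maximalIdeal O := by
  constructor
  · rintro ⟨w, rfl⟩
    exact ⟨w, by simp⟩
  · rintro ⟨y, hy⟩
    exact powCrit_exists_pow_eq p hpu u y hy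

/-- tame case: `p` a unit of `O`; a unit is a `p`-th power iff its residue class is. -/
theorem isPow_iff_residue (p : ℕ) (hpu : IsUnit (p : O)) (u : Oˣ) :
    (∃ w : Oˣ, w ^ p = u) ↔ ∃ y : ResidueField O, y ^ p = residue O (u : O) := by
  rw [isPow_iff_exists_sub_mem p hpu u]
  constructor
  · rintro ⟨y, hy⟩
    refine ⟨residue O y, ?_⟩
    have := (residue_eq_zero_iff _).2 hy
    rw [map_sub, map_pow, sub_eq_zero] at this
    exact this.symm
  · rintro ⟨y, hy⟩
    obtain ⟨a, rfl⟩ := residue_surjective y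
    refine ⟨a, ?_⟩
    rw [← residue_eq_zero_iff, map_sub, map_pow, hy, sub_self]

/-- an element of `Kˣ` of order `0` is a `p`-th power in `Kˣ` iff it is one in `Oˣ`. -/
theorem unitsMap_isPow_iff (p : ℕ) (hp : 0 < p) (u : Oˣ) :
    (∃ x : Kˣ, x ^ p = unitsMap O K u) ↔ ∃ w : Oˣ, w ^ p = u := by
  constructor
  · rintro ⟨x, hx⟩
    have h1 : ord O K (x ^ p) = 0 := by rw [hx, ord_unitsMap]
    rw [ord_pow] at h1
    have h2 : ord O K x = 0 := by
      rcases mul_eq_zero.1 h1 with h | h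
      · exact absurd (by exact_mod_cast h) hp.ne'
      · exact h
    obtain ⟨w, rfl⟩ := (ord_eq_zero_iff x).1 h2
    refine ⟨w, unitsMap_injective (K := K) ?_⟩
    rw [map_pow, hx]
  · rintro ⟨w, rfl⟩
    exact ⟨unitsMap O K w, (map_pow _ _ _).symm⟩

/-- `p`-th powers have order divisible by `p`. -/
theorem dvd_ord_of_isPow (p : ℕ) (x y : Kˣ) (h : y ^ p = x) : (p : ℤ) ∣ ord O K x := by
  rw [← h, ord_pow]
  exact Dvd.intro _ rfl

/-- openness of the group of `p`-th powers: `x ≡ 1 mod p² m` is a `p`-th power. -/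
theorem isPow_of_sub_one (p : ℕ) (hp : 0 < p) (x : Kˣ) (a : O) (ha : a ∈ maximalIdeal O)
    (hx : (x : K) = 1 + algebraMap O K ((p : O) ^ 2 * a)) : ∃ y : Kˣ, y ^ p = x := by
  have hu : IsUnit (1 + (p : O) ^ 2 * a) := by
    by_contra hn
    have h1 : 1 + (p : O) ^ 2 * a ∈ maximalIdeal O := (mem_maximalIdeal _).2 hn
    have h2 : (p : O) ^ 2 * a ∈ maximalIdeal O := Ideal.mul_mem_left _ _ ha
    have h3 : (1 : O) ∈ maximalIdeal O := by
      have := Ideal.sub_mem _ h1 h2
      rwa [add_sub_cancel_right] at this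
    exact (mem_maximalIdeal _).1 h3 isUnit_one
  obtain ⟨w, -, hw⟩ := exists_pow_eq_of_mem_pUnits p hp a ha hu.unit (by
    rw [mem_pUnits]
    simp)
  refine ⟨unitsMap O K w, Units.ext ?_⟩
  rw [← map_pow, hw, coe_unitsMap, hx]
  simp

end Fermat.Agent.S55.Loc.Arith
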