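/-
S55 / LOC-A / task LOC-A-A7 : tame Kummer extensions generated by roots of units are unramified.
`p` a prime which is a unit of `O`, `μ_p ⊆ K`, `[L:K] = p`, `α ∈ L`, `α ∉ K`, `α^p = u ∈ Oˣ`.
Proof: `α ∈ O'ˣ`.  If the residue class of `α` were in the image of the residue field of `O`
then `X^p - u` would have a simple root modulo `m`, hence a root `β ∈ O` (Hensel); `α / β` is a
`p`-th root of unity, so lies in `K`: contradiction.  So `resDeg > 1`, and `e f = p` gives `e = 1`.
-/
import Fermat.Agent.S55.Loc.Arith.EFN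
import Fermat.Agent.S55.Loc.Arith.PowCrit

set_option autoImplicit false
set_option linter.style.haveILetI false
set_option linter.unusedSectionVars false

namespace Fermat.Agent.S55.Loc.Arith

open IsLocalRing

variable (O K O' L : Type*) [CommRing O] [IsDomain O] [IsDiscreteValuationRing O]
  [HenselianLocalRing O] [Field K]
  [CharZero K] [Algebra O K] [IsFractionRing O K] [Finite (ResidueField O)]
  [CommRing O'] [IsDomain O'] [IsDiscreteValuationRing O'] [Field L]
  [Algebra O' L] [IsFractionRing O' L]
  [Algebra K L] [FiniteDimensional K L] [Algebra O O'] [Algebra O L]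
  [IsScalarTower O K L] [IsScalarTower O O' L] [IsIntegralClosure O' O L]

-- every statement of this file takes the explicit arguments `O K O' L` (in this order)
include O K O' L

/-- if the residue degree is one, `O → O'` is onto modulo the maximal ideal. -/
theorem TameUnram.exists_sub_mem (h1 : resDeg O O' = 1) (a : O') :
    ∃ b : O, a - algebraMap O O' b ∈ maximalIdeal O' := by
  haveI : IsLocalHom (algebraMap O O') := isLocalHom_algebraMap O K O' L
  haveI : Finite (ResidueField O') := Fermat.Agent.S55.Loc.Arith.finite_residueField O K O' L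
  have hcard : Nat.card (ResidueField O') = Nat.card (ResidueField O) := by
    rw [card_residueField O K O' L, h1, pow_one]
  have hbij : Function.Bijective (ResidueField.map (algebraMap O O')) :=
    Function.Injective.bijective_of_nat_card_le (RingHom.injective _) hcard.le
  obtain ⟨y, hy⟩ := hbij.2 (residue O' a)
  obtain ⟨b, rfl⟩ := residue_surjective y
  refine ⟨b, ?_⟩
  rw [← residue_eq_zero_iff, map_sub, ← hy, ResidueField.map_residue, sub_self]

theorem TameUnram.resDeg_ne_one (p : ℕ) (hp : p.Prime) (hpu : IsUnit (p : O)) {ζ : K}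
    (hζ : IsPrimitiveRoot ζ p) (u : Oˣ) (α : L)
    (hα : α ^ p = algebraMap O L (u : O)) (hαK : α ∉ Set.range (algebraMap K L)) :
    resDeg O O' ≠ 1 := by
  intro h1
  apply hαK
  -- `α` comes from `O'`
  have hint : IsIntegral O α := by
    refine ⟨Polynomial.X ^ p - Polynomial.C (u : O), Polynomial.monic_X_pow_sub_C _ hp.ne_zero, ?_⟩
    simp [hα]
  obtain ⟨a, rfl⟩ := (IsIntegralClosure.isIntegral_iff (A := O')).1 hint
  have ha : a ^ p = algebraMap O O' (u : O) := by
    apply IsFractionRing.injective O' L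
    rw [map_pow, hα, ← IsScalarTower.algebraMap_apply]
  obtain ⟨b, hb⟩ := TameUnram.exists_sub_mem O K O' L h1 a
  have hb2 : a ^ p - algebraMap O O' b ^ p ∈ maximalIdeal O' :=
    Ideal.mem_of_dvd _ (sub_dvd_pow_sub_pow a (algebraMap O O' b) p) hb
  rw [ha, ← map_pow, ← map_sub, algebraMap_mem_maximalIdeal_iff O K O' L] at hb2
  obtain ⟨w, hw⟩ := powCrit_exists_pow_eq p hpu u b hb2
  -- `α / w` is a `p`-th root of unity
  have hw0 : algebraMap O L (w : O) ≠ 0 := by
    rw [IsScalarTower.algebraMap_apply O K L]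
    have h2 : algebraMap O K (w : O) ≠ 0 :=
      (map_ne_zero_iff _ (IsFractionRing.injective O K)).2 w.ne_zero
    exact (map_ne_zero_iff _ (algebraMap K L).injective).2 h2
  have hw' : algebraMap O L (w : O) ^ p = algebraMap O L (u : O) := by
    rw [← map_pow, ← Units.val_pow_eq_pow_val, hw]
  have hroot : (algebraMap O' L a / algebraMap O L (w : O)) ^ p = 1 := by
    rw [div_pow, hα, hw', div_self]
    rw [← hw']
    exact pow_ne_zero _ hw0
  have hζ' : IsPrimitiveRoot (algebraMap K L ζ) p := hζ.map_of_injective (algebraMap K L).injective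
  haveI : NeZero p := ⟨hp.ne_zero⟩
  obtain ⟨k, -, hk⟩ := hζ'.eq_pow_of_pow_eq_one hroot
  refine ⟨algebraMap O K (w : O) * ζ ^ k, ?_⟩
  rw [map_mul, map_pow, hk, ← IsScalarTower.algebraMap_apply, mul_div_cancel₀ _ hw0]

/-- Consequence (with UnramRange): in the situation above all units of `O` are norms. -/
theorem resDeg_eq_of_root_of_unit (p : ℕ) (hp : p.Prime) (hpu : IsUnit (p : O)) {ζ : K}
    (hζ : IsPrimitiveRoot ζ p) (hdeg : Module.finrank K L = p) (u : Oˣ) (α : L)
    (hα : α ^ p = algebraMap O L (u : O)) (hαK : α ∉ Set.range (algebraMap K L)) :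
    resDeg O O' = p := by
  have h1 := ramIdx_mul_resDeg O K O' L
  rw [hdeg] at h1
  exact ((Nat.dvd_prime hp).1 (Dvd.intro_left _ h1)).resolve_left
    (TameUnram.resDeg_ne_one O K O' L p hp hpu hζ u α hα hαK)

theorem ramIdx_eq_one_of_root_of_unit (p : ℕ) (hp : p.Prime) (hpu : IsUnit (p : O)) {ζ : K}
    (hζ : IsPrimitiveRoot ζ p) (hdeg : Module.finrank K L = p) (u : Oˣ) (α : L)
    (hα : α ^ p = algebraMap O L (u : O)) (hαK : α ∉ Set.range (algebraMap K L)) :
    ramIdx O K O' L = 1 := by
  have h1 := ramIdx_mul_resDeg O K O' L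
  rw [hdeg, resDeg_eq_of_root_of_unit O K O' L p hp hpu hζ hdeg u α hα hαK] at h1
  exact Nat.eq_of_mul_eq_mul_right hp.pos (by rw [h1, one_mul])

end Fermat.Agent.S55.Loc.Arith
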