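/-
S55 / LOC-A / task LOC-A-A6b : units are norms in unramified extensions (ring form, any degree).
`R` henselian local with finite residue field, `S` a local ring, finite free over `R`, with
`m_R S = m_S`.  Then every unit of `R` is the norm of a unit of `S`.
Proof: `S / m_R S` is a finite field extension of `R / m_R`: the norm is onto
(`FiniteField.norm_surjective`) and the trace is onto (`Algebra.trace_surjective`).  With
`norm_quotient_mk` pick `w₀` with `N w₀ ≡ u`; `u' = u / N w₀ ≡ 1`.  With
`Algebra.trace_quotient_mk` pick `y` with `Tr y` a unit.  The polynomial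
`g(T) = det (1 + T • M_y) - u'` (`M_y = Algebra.leftMulMatrix b y`) has `g(0) = 1 - u' ∈ m_R`,
`g'(0) = Tr y` (`Matrix.derivative_det_one_add_X_smul`), so it has a root `t ∈ m_R`
(`exists_root_of_isUnit_derivative`), and `N (w₀ (1 + t y)) = u`.
-/
import Fermat.Agent.S55.Loc.Arith.Hensel
import Fermat.Agent.S55.Loc.Arith.NormQuot

set_option autoImplicit false

namespace Fermat.Agent.S55.Loc.Arith

open IsLocalRing

attribute [local instance] Ideal.Quotient.field

/-- Evaluation of `det (1 + X • M)` at `t`. -/
theorem eval_det_one_add_X_smul {n R : Type*} [CommRing R] [Fintype n] [DecidableEq n]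
    (M : Matrix n n R) (t : R) :
    (Matrix.det (1 + (Polynomial.X : Polynomial R) • M.map Polynomial.C)).eval t =
      Matrix.det (1 + t • M) := by
  have h := RingHom.map_det (Polynomial.evalRingHom t)
    (1 + (Polynomial.X : Polynomial R) • M.map Polynomial.C)
  rw [Polynomial.coe_evalRingHom] at h
  rw [h]
  congr 1
  ext i j
  by_cases hij : i = j
  · subst hij
    simp
    exact mul_comm _ _
  · simp [Matrix.one_apply_ne hij]
    exact mul_comm _ _

/-- Principal units close to `1` are norms, given an element whose trace is a unit. -/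
theorem exists_norm_one_add_smul_eq {R S : Type*} [CommRing R] [CommRing S] [Algebra R S]
    [Module.Free R S] [Module.Finite R S] [HenselianLocalRing R]
    (y : S) (hy : IsUnit (Algebra.trace R S y)) (u' : R) (hu' : 1 - u' ∈ maximalIdeal R) :
    ∃ t ∈ maximalIdeal R, Algebra.norm R (1 + t • y) = u' := by
  classical
  let b := Module.Free.chooseBasis R S
  set M := Algebra.leftMulMatrix b y with hM
  set g : Polynomial R :=
    Matrix.det (1 + (Polynomial.X : Polynomial R) • M.map Polynomial.C) - Polynomial.C u' with hg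
  have h0 : g.eval 0 ∈ maximalIdeal R := by
    rw [hg, Polynomial.eval_sub, Polynomial.eval_C, eval_det_one_add_X_smul, zero_smul, add_zero,
      Matrix.det_one]
    exact hu'
  have h1 : IsUnit (g.derivative.eval 0) := by
    rw [hg, Polynomial.derivative_sub, Polynomial.derivative_C, sub_zero,
      Matrix.derivative_det_one_add_X_smul, hM, ← Algebra.trace_eq_matrix_trace b]
    exact hy
  obtain ⟨t, ht, htm⟩ := exists_root_of_isUnit_derivative g 0 h0 h1
  rw [sub_zero] at htm
  refine ⟨t, htm, ?_⟩
  rw [Polynomial.IsRoot.def, hg, Polynomial.eval_sub, Polynomial.eval_C, eval_det_one_add_X_smul,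
    sub_eq_zero] at ht
  rw [Algebra.norm_eq_matrix_det b, map_add, map_one, map_smul]
  exact ht

theorem exists_unit_norm_eq {R S : Type*} [CommRing R] [CommRing S] [Algebra R S]
    [Module.Free R S] [Module.Finite R S] [HenselianLocalRing R] [IsLocalRing S]
    [Finite (ResidueField R)]
    (hur : Ideal.map (algebraMap R S) (maximalIdeal R) = maximalIdeal S) (u : Rˣ) :
    ∃ w : Sˣ, Algebra.norm R (w : S) = (u : R) := by
  classical
  have hmax : (Ideal.map (algebraMap R S) (maximalIdeal R)).IsMaximal := by
    rw [hur]; exact maximalIdeal.isMaximal S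
  have hfinR : Finite (R ⧸ maximalIdeal R) := ‹Finite (ResidueField R)›
  let b := Module.Free.chooseBasis R S
  have hfinmod : Module.Finite (R ⧸ maximalIdeal R)
      (S ⧸ Ideal.map (algebraMap R S) (maximalIdeal R)) :=
    Module.Finite.of_basis (basisQuotient b)
  have hfinS : Finite (S ⧸ Ideal.map (algebraMap R S) (maximalIdeal R)) :=
    Module.finite_of_finite (R ⧸ maximalIdeal R)
  -- an element whose norm is congruent to `u`
  obtain ⟨w0bar, hw0bar⟩ := FiniteField.norm_surjective (R ⧸ maximalIdeal R)
    (S ⧸ Ideal.map (algebraMap R S) (maximalIdeal R)) (Ideal.Quotient.mk _ (u : R))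
  obtain ⟨w0, rfl⟩ := Ideal.Quotient.mk_surjective w0bar
  rw [norm_quotient_mk, Ideal.Quotient.eq] at hw0bar
  have hN0 : IsUnit (Algebra.norm R w0) := by
    by_contra hcon
    have h1 : Algebra.norm R w0 ∈ maximalIdeal R := (mem_maximalIdeal _).2 hcon
    have h2 : (u : R) ∈ maximalIdeal R := by
      have h3 : (u : R) = Algebra.norm R w0 - (Algebra.norm R w0 - u) := by ring
      rw [h3]
      exact (maximalIdeal R).sub_mem h1 hw0bar
    exact (mem_maximalIdeal _).1 h2 u.isUnit
  have hw0 : IsUnit w0 := by
    by_contra hcon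
    have h1 : w0 ∈ Ideal.map (algebraMap R S) (maximalIdeal R) := by
      rw [hur]; exact (mem_maximalIdeal _).2 hcon
    have h2 : Ideal.Quotient.mk (maximalIdeal R) (Algebra.norm R w0) = 0 := by
      rw [← norm_quotient_mk, Ideal.Quotient.eq_zero_iff_mem.2 h1, Algebra.norm_zero]
    rw [Ideal.Quotient.eq_zero_iff_mem] at h2
    exact (mem_maximalIdeal _).1 h2 hN0
  obtain ⟨n0, hn0⟩ := hN0
  -- an element whose trace is a unit
  obtain ⟨ybar, hybar⟩ := Algebra.trace_surjective (R ⧸ maximalIdeal R)
    (S ⧸ Ideal.map (algebraMap R S) (maximalIdeal R)) 1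
  obtain ⟨y, rfl⟩ := Ideal.Quotient.mk_surjective ybar
  rw [Algebra.trace_quotient_mk] at hybar
  have hy : IsUnit (Algebra.trace R S y) := by
    by_contra hcon
    have h1 : Algebra.trace R S y ∈ maximalIdeal R := (mem_maximalIdeal _).2 hcon
    rw [Ideal.Quotient.eq_zero_iff_mem.2 h1] at hybar
    exact zero_ne_one hybar
  -- the correction
  have hu' : 1 - ((n0⁻¹ * u : Rˣ) : R) ∈ maximalIdeal R := by
    have h1 : 1 - ((n0⁻¹ * u : Rˣ) : R) = ((n0⁻¹ : Rˣ) : R) * (Algebra.norm R w0 - u) := by
      rw [← hn0]
      push_cast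
      rw [mul_sub, Units.inv_mul]
    rw [h1]
    exact Ideal.mul_mem_left _ _ hw0bar
  obtain ⟨t, htm, ht⟩ := exists_norm_one_add_smul_eq y hy _ hu'
  have h1t : IsUnit (1 + t • y) := by
    by_contra hcon
    have h1 : 1 + t • y ∈ maximalIdeal S := (mem_maximalIdeal _).2 hcon
    have h2 : t • y ∈ maximalIdeal S := by
      rw [← hur, Algebra.smul_def]
      exact Ideal.mul_mem_right _ _ (Ideal.mem_map_of_mem _ htm)
    have h3 : (1 : S) ∈ maximalIdeal S := by
      have h4 : (1 : S) = 1 + t • y - t • y := by ring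
      rw [h4]
      exact (maximalIdeal S).sub_mem h1 h2
    exact (mem_maximalIdeal _).1 h3 isUnit_one
  refine ⟨hw0.unit * h1t.unit, ?_⟩
  rw [Units.val_mul, IsUnit.unit_spec, IsUnit.unit_spec, map_mul, ht, ← hn0]
  push_cast
  rw [Units.mul_inv_cancel_left]

end Fermat.Agent.S55.Loc.Arith
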