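/-
S55 / LOC-A / task LOC-A-A6c : the norm group of an unramified extension (field form).
-/
import Fermat.Agent.S55.Loc.Arith.UnramNorm
import Fermat.Agent.S55.Loc.Arith.EFN

set_option autoImplicit false

namespace Fermat.Agent.S55.Loc.Arith

open IsLocalRing

variable (O K O' L : Type*) [CommRing O] [IsDomain O] [IsDiscreteValuationRing O]
  [HenselianLocalRing O] [Field K]
  [CharZero K] [Algebra O K] [IsFractionRing O K] [Finite (ResidueField O)]
  [CommRing O'] [IsDomain O'] [IsDiscreteValuationRing O'] [Field L]
  [Algebra O' L] [IsFractionRing O' L]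
  [Algebra K L] [FiniteDimensional K L] [Algebra O O'] [Algebra O L]
  [IsScalarTower O K L] [IsScalarTower O O' L] [IsIntegralClosure O' O L]

/-- units are norms of units. -/
theorem exists_unit_normU_eq (h : ramIdx O K O' L = 1) (u : Oˣ) :
    ∃ w : O'ˣ, normU K L (unitsMap O' L w) = unitsMap O K u := by
  have : Module.Finite O O' := IsIntegralClosure.finite O K L O'
  have : Module.IsTorsionFree O L := by
    have hinj : Function.Injective (algebraMap O L) := by
      rw [IsScalarTower.algebraMap_eq O K L]
      exact (algebraMap K L).injective.comp (IsFractionRing.injective O K)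
    exact Module.isTorsionFree_iff_algebraMap_injective.2 hinj
  have : Module.Free O O' := IsIntegralClosure.module_free O K L O'
  obtain ⟨w, hw⟩ := exists_unit_norm_eq (R := O) (S := O') ((ramIdx_eq_one_iff O K O' L).1 h) u
  refine ⟨w, Units.ext ?_⟩
  show Algebra.norm K (algebraMap O' L (w : O')) = algebraMap O K (u : O)
  rw [norm_algebraMap_eq O K O' L, hw]

theorem UK_le_range_normU (h : ramIdx O K O' L = 1) : UK O K ≤ (normU K L).range := by
  rintro _ ⟨u, rfl⟩
  obtain ⟨w, hw⟩ := exists_unit_normU_eq O K O' L h u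
  exact ⟨_, hw⟩

theorem mem_range_normU_iff (h : ramIdx O K O' L = 1) (x : Kˣ) :
    x ∈ (normU K L).range ↔ (Module.finrank K L : ℤ) ∣ ord O K x := by
  have hf : resDeg O O' = Module.finrank K L := by
    have := ramIdx_mul_resDeg O K O' L
    rwa [h, one_mul] at this
  constructor
  · rintro ⟨y, rfl⟩
    rw [ord_normU O K O' L, hf]
    exact Dvd.intro _ rfl
  · rintro ⟨k, hk⟩
    obtain ⟨π, hπ⟩ := exists_ord_eq_one O K
    obtain ⟨u, hu⟩ := exists_eq_zpow_mul π hπ x
    obtain ⟨w, hw⟩ := exists_unit_normU_eq O K O' L h u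
    have hN : normU K L (incl K L π) = π ^ Module.finrank K L := by
      apply Units.ext
      show Algebra.norm K (algebraMap K L (π : K)) = _
      rw [Algebra.norm_algebraMap]
      simp
    refine ⟨incl K L π ^ k * unitsMap O' L w, ?_⟩
    rw [map_mul, map_zpow, hN, hw]
    conv_rhs => rw [hu, hk]
    rw [← zpow_natCast, ← zpow_mul]

end Fermat.Agent.S55.Loc.Arith
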